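import Fermat.Agent.Kummer.Defs

/-!
# Kummer / PID: the Minkowski bound of `ℚ(ζ₁₁)` is `< 59`
-/

set_option autoImplicit false

namespace Fermat.Agent.Kummer.PID

open NumberField Module InfinitePlace Ideal Nat Real

/-- Numerical input (`M ≈ 58.963`; needs `π > 3.1415`). -/
theorem num_eleven : (11 : ℝ) ^ 9 < (59 * (π / 4) ^ 5 * (10 ^ 10 / 3628800)) ^ 2 := by
  have h : (59 * ((3.1415 : ℝ) / 4) ^ 5 * (10 ^ 10 / 3628800)) ^ 2 ≤
      (59 * (π / 4) ^ 5 * (10 ^ 10 / 3628800)) ^ 2 := by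
    gcongr
    exact pi_gt_d4.le
  exact lt_of_lt_of_le (by norm_num) h

theorem floor_bound_eleven (K : Type) [Field K] [NumberField K] [IsCyclotomicExtension {11} ℚ K] :
    ⌊(4 / π) ^ nrComplexPlaces K *
      ((finrank ℚ K)! / (finrank ℚ K) ^ (finrank ℚ K) * √|discr K|)⌋₊ ≤ 58 := by
  have : Fact (Nat.Prime 11) := ⟨by norm_num⟩
  rw [IsCyclotomicExtension.Rat.discr_prime 11 K, IsCyclotomicExtension.finrank (n := 11) K
    (Polynomial.cyclotomic.irreducible_rat (by simp)),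
    IsCyclotomicExtension.Rat.nrComplexPlaces_eq_totient_div_two 11,
    Nat.totient_prime (by norm_num)]
  apply Nat.le_of_lt_succ
  rw [Nat.floor_lt (by positivity)]
  have hfact : ((11 - 1)! : ℕ) = 3628800 := by decide
  have habs : |(((-1 : ℤ) ^ ((11 - 1) / 2) * ((11 : ℕ) : ℤ) ^ (11 - 2) : ℤ) : ℝ)| =
      (11 : ℝ) ^ 9 := by
    norm_num
  rw [habs, hfact]
  have hsqrt : √((11 : ℝ) ^ 9) < 59 * (π / 4) ^ 5 * (10 ^ 10 / 3628800) := by
    rw [Real.sqrt_lt' (by positivity)]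
    exact num_eleven
  have hpi : (0 : ℝ) < π := Real.pi_pos
  calc (4 / π) ^ ((11 - 1) / 2) *
        (((3628800 : ℕ) : ℝ) / ((11 - 1 : ℕ) : ℝ) ^ (11 - 1) * √((11 : ℝ) ^ 9))
      = (4 / π) ^ 5 * (3628800 / 10 ^ 10 * √((11 : ℝ) ^ 9)) := by norm_num
    _ < (4 / π) ^ 5 * (3628800 / 10 ^ 10 * (59 * (π / 4) ^ 5 * (10 ^ 10 / 3628800))) := by
        gcongr
    _ = 59 := by
        field_simp
    _ = ((58 + 1 : ℕ) : ℝ) := by norm_num

end Fermat.Agent.Kummer.PID
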