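import Fermat.Agent.Kummer.Defs

/-!
# Kummer / PID: the Minkowski bound of `ℚ(ζ₁₃)` is `< 307`
-/

set_option autoImplicit false

namespace Fermat.Agent.Kummer.PID

open NumberField Module InfinitePlace Ideal Nat Real

/-- Numerical input (`M ≈ 306.416`; needs `π > 3.1415`). -/
theorem num_thirteen : (13 : ℝ) ^ 11 < (307 * (π / 4) ^ 6 * (12 ^ 12 / 479001600)) ^ 2 := by
  have h : (307 * ((3.1415 : ℝ) / 4) ^ 6 * (12 ^ 12 / 479001600)) ^ 2 ≤
      (307 * (π / 4) ^ 6 * (12 ^ 12 / 479001600)) ^ 2 := by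
    gcongr
    exact pi_gt_d4.le
  exact lt_of_lt_of_le (by norm_num) h

theorem floor_bound_thirteen (K : Type) [Field K] [NumberField K]
    [IsCyclotomicExtension {13} ℚ K] :
    ⌊(4 / π) ^ nrComplexPlaces K *
      ((finrank ℚ K)! / (finrank ℚ K) ^ (finrank ℚ K) * √|discr K|)⌋₊ ≤ 306 := by
  have : Fact (Nat.Prime 13) := ⟨by norm_num⟩
  rw [IsCyclotomicExtension.Rat.discr_prime 13 K, IsCyclotomicExtension.finrank (n := 13) K
    (Polynomial.cyclotomic.irreducible_rat (by simp)),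
    IsCyclotomicExtension.Rat.nrComplexPlaces_eq_totient_div_two 13,
    Nat.totient_prime (by norm_num : Nat.Prime 13)]
  have hsqrt : √((13 : ℝ) ^ 11) < 307 * (π / 4) ^ 6 * (12 ^ 12 / 479001600) := by
    rw [Real.sqrt_lt' (by positivity)]
    exact num_thirteen
  have hfact : ((13 - 1 : ℕ)! : ℝ) = 479001600 := by
    norm_num [Nat.factorial]
  have habs : |(((-1) ^ ((13 - 1) / 2) * ((13 : ℕ) : ℤ) ^ (13 - 2) : ℤ) : ℝ)| = (13 : ℝ) ^ 11 := by
    norm_num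
  rw [hfact, habs]
  apply Nat.le_of_lt_succ
  rw [Nat.floor_lt (by positivity)]
  have hpi : (0 : ℝ) < π := Real.pi_pos
  have hc : (0 : ℝ) <
      (4 / π) ^ ((13 - 1) / 2) * (479001600 / ((13 - 1 : ℕ) : ℝ) ^ (13 - 1)) := by
    positivity
  calc (4 / π) ^ ((13 - 1) / 2) *
        (479001600 / ((13 - 1 : ℕ) : ℝ) ^ (13 - 1) * √((13 : ℝ) ^ 11))
      = (4 / π) ^ ((13 - 1) / 2) * (479001600 / ((13 - 1 : ℕ) : ℝ) ^ (13 - 1)) *
          √((13 : ℝ) ^ 11) := by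
        ring
    _ < (4 / π) ^ ((13 - 1) / 2) * (479001600 / ((13 - 1 : ℕ) : ℝ) ^ (13 - 1)) *
          (307 * (π / 4) ^ 6 * (12 ^ 12 / 479001600)) :=
        mul_lt_mul_of_pos_left hsqrt hc
    _ = ((306 + 1 : ℕ) : ℝ) := by
        norm_num
        field_simp

end Fermat.Agent.Kummer.PID
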