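import Fermat.Agent.Kummer.Defs

/-!
# Kummer / PID: the Minkowski bound of `ℚ(ζ₇)` is `< 5`
-/

set_option autoImplicit false

namespace Fermat.Agent.Kummer.PID

open NumberField Module InfinitePlace Ideal Nat Real

/-- Numerical input (`M ≈ 4.1295`). -/
theorem num_seven : (7 : ℝ) ^ 5 < (5 * (π / 4) ^ 3 * (6 ^ 6 / 720)) ^ 2 := by
  have h : (5 * ((3 : ℝ) / 4) ^ 3 * (6 ^ 6 / 720)) ^ 2 ≤
      (5 * (π / 4) ^ 3 * (6 ^ 6 / 720)) ^ 2 := by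
    gcongr
    exact pi_gt_three.le
  exact lt_of_lt_of_le (by norm_num) h

/-- The Minkowski constant of `ℚ(ζ₇)`, in explicit form, is `< 5`. -/
theorem Bound7.aux_lt_five : (4 / π) ^ 3 * ((720 : ℝ) / 6 ^ 6 * √((7 : ℝ) ^ 5)) < 5 := by
  have hπ : 0 < π := pi_pos
  have hs : √((7 : ℝ) ^ 5) < 5 * (π / 4) ^ 3 * (6 ^ 6 / 720) := by
    rw [Real.sqrt_lt' (by positivity)]
    exact num_seven
  have hc : 0 < (4 / π) ^ 3 * ((720 : ℝ) / 6 ^ 6) := by positivity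
  calc (4 / π) ^ 3 * ((720 : ℝ) / 6 ^ 6 * √((7 : ℝ) ^ 5))
      = (4 / π) ^ 3 * ((720 : ℝ) / 6 ^ 6) * √((7 : ℝ) ^ 5) := by ring
    _ < (4 / π) ^ 3 * ((720 : ℝ) / 6 ^ 6) * (5 * (π / 4) ^ 3 * (6 ^ 6 / 720)) :=
        mul_lt_mul_of_pos_left hs hc
    _ = 5 := by field_simp

theorem floor_bound_seven (K : Type) [Field K] [NumberField K] [IsCyclotomicExtension {7} ℚ K] :
    ⌊(4 / π) ^ nrComplexPlaces K *
      ((finrank ℚ K)! / (finrank ℚ K) ^ (finrank ℚ K) * √|discr K|)⌋₊ ≤ 4 := by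
  have : Fact (Nat.Prime 7) := ⟨by norm_num⟩
  rw [IsCyclotomicExtension.Rat.discr_prime 7 K, IsCyclotomicExtension.finrank (n := 7) K
    (Polynomial.cyclotomic.irreducible_rat (by simp)),
    IsCyclotomicExtension.Rat.nrComplexPlaces_eq_totient_div_two 7,
    Nat.totient_prime (by norm_num : Nat.Prime 7)]
  apply Nat.le_of_lt_succ
  rw [Nat.floor_lt (by positivity)]
  have hfact : (7 - 1)! = 720 := by decide
  have habs : |(((-1 : ℤ) ^ ((7 - 1) / 2) * ((7 : ℕ) : ℤ) ^ (7 - 2) : ℤ) : ℝ)| = (7 : ℝ) ^ 5 := by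
    norm_num
  have h5 : ((Nat.succ 4 : ℕ) : ℝ) = 5 := by norm_num
  rw [hfact, habs, h5]
  refine lt_of_eq_of_lt ?_ Bound7.aux_lt_five
  norm_num

end Fermat.Agent.Kummer.PID
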