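import Fermat.Agent.Kummer.Defs

/-!
# Kummer / PID: the finite list of exceptional primes below the Minkowski bounds
-/

set_option autoImplicit false

namespace Fermat.Agent.Kummer.PID

/-- If `ℓ ≥ 2` and `ℓ ^ k ≤ B < 2 ^ n` then `k < n`. -/
theorem Check.exp_lt {ℓ k B n : ℕ} (h2 : 2 ≤ ℓ) (h : ℓ ^ k ≤ B) (hB : B < 2 ^ n) : k < n := by
  by_contra hcon
  have hnk : n ≤ k := not_lt.mp hcon
  have h1 : 2 ^ n ≤ 2 ^ k := Nat.pow_le_pow_right (by norm_num) hnk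
  have h2' : 2 ^ k ≤ ℓ ^ k := Nat.pow_le_pow_left h2 k
  omega

/-- A prime has no proper divisor `d ≥ 2`. -/
theorem Check.prime_dvd {ℓ : ℕ} (hℓ : ℓ.Prime) (d : ℕ) (hd : 2 ≤ d) (hdvd : d ∣ ℓ) : d = ℓ := by
  rcases (Nat.dvd_prime hℓ).mp hdvd with h | h
  · omega
  · exact h

theorem Check.aux_seven : ∀ ℓ < 5, ∀ k < 3,
    (1 ≤ k ∧ ℓ ^ k ≤ 4 ∧ ℓ ^ k % 7 = 1 ∧ 2 ≤ ℓ) → False := by
  decide +kernel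

set_option synthInstance.maxSize 10000 in
theorem Check.aux_eleven : ∀ ℓ < 59, ∀ k < 6,
    (1 ≤ k ∧ ℓ ^ k ≤ 58 ∧ ℓ ^ k % 11 = 1 ∧ 2 ≤ ℓ ∧ ∀ d < 18, 2 ≤ d → d ∣ ℓ → d = ℓ) →
      ℓ = 23 := by
  decide +kernel

set_option synthInstance.maxSize 10000 in
theorem Check.aux_thirteen : ∀ ℓ < 307, ∀ k < 9,
    (1 ≤ k ∧ ℓ ^ k ≤ 306 ∧ ℓ ^ k % 13 = 1 ∧ 2 ≤ ℓ ∧ ∀ d < 18, 2 ≤ d → d ∣ ℓ → d = ℓ) →
      ℓ = 3 ∨ ℓ = 53 ∨ ℓ = 79 ∨ ℓ = 131 ∨ ℓ = 157 := by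
  decide +kernel

/-- `p = 7`, bound `4`: no exceptional prime. -/
theorem check_seven (ℓ : ℕ) (hℓ : ℓ.Prime) (hle : ℓ ≤ 4) (hne : ℓ ≠ 7)
    (h : ∃ k, 1 ≤ k ∧ ℓ ^ k ≤ 4 ∧ ℓ ^ k % 7 = 1) : False := by
  have _hne := hne
  obtain ⟨k, hk1, hk2, hk3⟩ := h
  have hk : k < 3 := Check.exp_lt hℓ.two_le hk2 (by norm_num)
  exact Check.aux_seven ℓ (by omega) k hk ⟨hk1, hk2, hk3, hℓ.two_le⟩

/-- `p = 11`, bound `58`: the only exceptional prime is `23`. -/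
theorem check_eleven (ℓ : ℕ) (hℓ : ℓ.Prime) (hle : ℓ ≤ 58) (hne : ℓ ≠ 11)
    (h : ∃ k, 1 ≤ k ∧ ℓ ^ k ≤ 58 ∧ ℓ ^ k % 11 = 1) : ℓ = 23 := by
  have _hne := hne
  obtain ⟨k, hk1, hk2, hk3⟩ := h
  have hk : k < 6 := Check.exp_lt hℓ.two_le hk2 (by norm_num)
  exact Check.aux_eleven ℓ (by omega) k hk
    ⟨hk1, hk2, hk3, hℓ.two_le, fun d _ hd hdvd => Check.prime_dvd hℓ d hd hdvd⟩

/-- `p = 13`, bound `306`: the exceptional primes are `3` (order 3), `53`, `79`, `131`, `157`. -/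
theorem check_thirteen (ℓ : ℕ) (hℓ : ℓ.Prime) (hle : ℓ ≤ 306) (hne : ℓ ≠ 13)
    (h : ∃ k, 1 ≤ k ∧ ℓ ^ k ≤ 306 ∧ ℓ ^ k % 13 = 1) :
    ℓ = 3 ∨ ℓ = 53 ∨ ℓ = 79 ∨ ℓ = 131 ∨ ℓ = 157 := by
  have _hne := hne
  obtain ⟨k, hk1, hk2, hk3⟩ := h
  have hk : k < 9 := Check.exp_lt hℓ.two_le hk2 (by norm_num)
  exact Check.aux_thirteen ℓ (by omega) k hk
    ⟨hk1, hk2, hk3, hℓ.two_le, fun d _ hd hdvd => Check.prime_dvd hℓ d hd hdvd⟩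

end Fermat.Agent.Kummer.PID
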