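import Fermat.Agent.Kummer.Defs

/-!
# Kummer / PID: norm certificate for `p = 11`: `N(1 + ζ + ζ³) = 23`
(a polynomial identity modulo `z^11 = 1`, `1 + z + ⋯ + z^10 = 0`, in any commutative ring)

The proof is generated by exact integer polynomial arithmetic: with `f = 1 + X + X^3`,
`Q_k = Q_(k-1) * f(X^k) mod (X^11 - 1)` and `Q_(k-1) * f(X^k) - Q_k = C_k * (X^11 - 1)`;
finally `Q_10 = 23 + 5366 * (1 + X + ⋯ + X^10)`.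
-/

set_option autoImplicit false

namespace Fermat.Agent.Kummer.PID

/-- Expansion of the product over `Finset.Icc 1 10` as an explicit left-nested product. -/
theorem Cert11.prod_Icc_aux {R : Type*} [CommRing R] (g : ℕ → R) :
    ∏ k ∈ Finset.Icc 1 10, g k =
      g 1 * g 2 * g 3 * g 4 * g 5 * g 6 * g 7 * g 8 * g 9 * g 10 := by
  simp only [Finset.prod_Icc_succ_top (by norm_num : (1 : ℕ) ≤ _), Finset.Icc_self,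
    Finset.prod_singleton]

theorem cert11_23 {R : Type*} [CommRing R] (z : R) (h1 : z ^ 11 = 1)
    (h2 : ∑ i ∈ Finset.range 11, z ^ i = 0) :
    ∏ k ∈ Finset.Icc 1 10, (1 + z ^ k + (z ^ k) ^ 3) = 23 := by
  have h2' :
      (1 + z + z ^ 2 + z ^ 3 + z ^ 4 + z ^ 5 + z ^ 6 + z ^ 7 + z ^ 8 + z ^ 9 + z ^ 10 : R) = 0 := by
    rw [← h2]
    simp only [Finset.sum_range_succ, Finset.sum_range_zero]
    ring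
  have s1 :
      (1 + z ^ 1 + (z ^ 1) ^ 3) =
      (1 + z + z ^ 3 : R) := by
    ring
  have s2 :
      (1 + z + z ^ 3) *
        (1 + z ^ 2 + (z ^ 2) ^ 3) =
      (1 + z + z ^ 2 + 2 * z ^ 3 + z ^ 5 + z ^ 6 + z ^ 7 + z ^ 9 : R) := by
    ring
  have s3 :
      (1 + z + z ^ 2 + 2 * z ^ 3 + z ^ 5 + z ^ 6 + z ^ 7 + z ^ 9) *
        (1 + z ^ 3 + (z ^ 3) ^ 3) =
      (2 + 4 * z + z ^ 2 + 4 * z ^ 3 + 2 * z ^ 4 + 3 * z ^ 5 + 3 * z ^ 6 + 2 * z ^ 7 + z ^ 8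
        + 3 * z ^ 9 + 2 * z ^ 10 : R) := by
    linear_combination
      (1 + 3 * z + z ^ 3 + z ^ 4 + z ^ 5 + z ^ 7) * h1
  have s4 :
      (2 + 4 * z + z ^ 2 + 4 * z ^ 3 + 2 * z ^ 4 + 3 * z ^ 5 + 3 * z ^ 6 + 2 * z ^ 7 + z ^ 8
        + 3 * z ^ 9 + 2 * z ^ 10) *
        (1 + z ^ 4 + (z ^ 4) ^ 3) =
      (6 + 7 * z + 8 * z ^ 2 + 7 * z ^ 3 + 8 * z ^ 4 + 9 * z ^ 5 + 7 * z ^ 6 + 9 * z ^ 7
        + 5 * z ^ 8 + 7 * z ^ 9 + 8 * z ^ 10 : R) := by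
    linear_combination
      (4 + 3 * z + 7 * z ^ 2 + 3 * z ^ 3 + 4 * z ^ 4 + 2 * z ^ 5 + 3 * z ^ 6 + 3 * z ^ 7
        + 2 * z ^ 8 + z ^ 9 + 3 * z ^ 10 + 2 * z ^ 11) * h1
  have s5 :
      (6 + 7 * z + 8 * z ^ 2 + 7 * z ^ 3 + 8 * z ^ 4 + 9 * z ^ 5 + 7 * z ^ 6 + 9 * z ^ 7
        + 5 * z ^ 8 + 7 * z ^ 9 + 8 * z ^ 10) *
        (1 + z ^ 5 + (z ^ 5) ^ 3) =
      (22 + 21 * z + 20 * z ^ 2 + 22 * z ^ 3 + 22 * z ^ 4 + 22 * z ^ 5 + 22 * z ^ 6 + 24 * z ^ 7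
        + 20 * z ^ 8 + 24 * z ^ 9 + 24 * z ^ 10 : R) := by
    linear_combination
      (16 + 14 * z + 12 * z ^ 2 + 15 * z ^ 3 + 14 * z ^ 4 + 7 * z ^ 5 + 8 * z ^ 6 + 7 * z ^ 7
        + 8 * z ^ 8 + 9 * z ^ 9 + 7 * z ^ 10 + 9 * z ^ 11 + 5 * z ^ 12 + 7 * z ^ 13
        + 8 * z ^ 14) * h1
  have s6 :
      (22 + 21 * z + 20 * z ^ 2 + 22 * z ^ 3 + 22 * z ^ 4 + 22 * z ^ 5 + 22 * z ^ 6 + 24 * z ^ 7
        + 20 * z ^ 8 + 24 * z ^ 9 + 24 * z ^ 10) *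
        (1 + z ^ 6 + (z ^ 6) ^ 3) =
      (66 + 65 * z + 66 * z ^ 2 + 66 * z ^ 3 + 66 * z ^ 4 + 70 * z ^ 5 + 68 * z ^ 6 + 67 * z ^ 7
        + 61 * z ^ 8 + 66 * z ^ 9 + 68 * z ^ 10 : R) := by
    linear_combination
      (44 + 44 * z + 46 * z ^ 2 + 44 * z ^ 3 + 44 * z ^ 4 + 48 * z ^ 5 + 24 * z ^ 6 + 22 * z ^ 7
        + 21 * z ^ 8 + 20 * z ^ 9 + 22 * z ^ 10 + 22 * z ^ 11 + 22 * z ^ 12 + 22 * z ^ 13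
        + 24 * z ^ 14 + 20 * z ^ 15 + 24 * z ^ 16 + 24 * z ^ 17) * h1
  have s7 :
      (66 + 65 * z + 66 * z ^ 2 + 66 * z ^ 3 + 66 * z ^ 4 + 70 * z ^ 5 + 68 * z ^ 6 + 67 * z ^ 7
        + 61 * z ^ 8 + 66 * z ^ 9 + 68 * z ^ 10) *
        (1 + z ^ 7 + (z ^ 7) ^ 3) =
      (197 + 201 * z + 200 * z ^ 2 + 199 * z ^ 3 + 197 * z ^ 4 + 204 * z ^ 5 + 203 * z ^ 6
        + 194 * z ^ 7 + 192 * z ^ 8 + 200 * z ^ 9 + 200 * z ^ 10 : R) := by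
    linear_combination
      (131 + 136 * z + 134 * z ^ 2 + 133 * z ^ 3 + 131 * z ^ 4 + 134 * z ^ 5 + 135 * z ^ 6
        + 61 * z ^ 7 + 66 * z ^ 8 + 68 * z ^ 9 + 66 * z ^ 10 + 65 * z ^ 11 + 66 * z ^ 12
        + 66 * z ^ 13 + 66 * z ^ 14 + 70 * z ^ 15 + 68 * z ^ 16 + 67 * z ^ 17 + 61 * z ^ 18
        + 66 * z ^ 19 + 68 * z ^ 20) * h1
  have s8 :
      (197 + 201 * z + 200 * z ^ 2 + 199 * z ^ 3 + 197 * z ^ 4 + 204 * z ^ 5 + 203 * z ^ 6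
        + 194 * z ^ 7 + 192 * z ^ 8 + 200 * z ^ 9 + 200 * z ^ 10) *
        (1 + z ^ 8 + (z ^ 8) ^ 3) =
      (596 + 598 * z + 601 * z ^ 2 + 603 * z ^ 3 + 591 * z ^ 4 + 595 * z ^ 5 + 600 * z ^ 6
        + 598 * z ^ 7 + 592 * z ^ 8 + 595 * z ^ 9 + 592 * z ^ 10 : R) := by
    linear_combination
      (399 + 397 * z + 401 * z ^ 2 + 404 * z ^ 3 + 394 * z ^ 4 + 391 * z ^ 5 + 397 * z ^ 6
        + 404 * z ^ 7 + 203 * z ^ 8 + 194 * z ^ 9 + 192 * z ^ 10 + 200 * z ^ 11 + 200 * z ^ 12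
        + 197 * z ^ 13 + 201 * z ^ 14 + 200 * z ^ 15 + 199 * z ^ 16 + 197 * z ^ 17 + 204 * z ^ 18
        + 203 * z ^ 19 + 194 * z ^ 20 + 192 * z ^ 21 + 200 * z ^ 22 + 200 * z ^ 23) * h1
  have s9 :
      (596 + 598 * z + 601 * z ^ 2 + 603 * z ^ 3 + 591 * z ^ 4 + 595 * z ^ 5 + 600 * z ^ 6
        + 598 * z ^ 7 + 592 * z ^ 8 + 595 * z ^ 9 + 592 * z ^ 10) *
        (1 + z ^ 9 + (z ^ 9) ^ 3) =
      (1797 + 1799 * z + 1784 * z ^ 2 + 1793 * z ^ 3 + 1783 * z ^ 4 + 1789 * z ^ 5 + 1790 * z ^ 6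
        + 1794 * z ^ 7 + 1787 * z ^ 8 + 1782 * z ^ 9 + 1785 * z ^ 10 : R) := by
    linear_combination
      (1201 + 1201 * z + 1183 * z ^ 2 + 1190 * z ^ 3 + 1192 * z ^ 4 + 1194 * z ^ 5 + 1190 * z ^ 6
        + 1196 * z ^ 7 + 1195 * z ^ 8 + 591 * z ^ 9 + 595 * z ^ 10 + 600 * z ^ 11 + 598 * z ^ 12
        + 592 * z ^ 13 + 595 * z ^ 14 + 592 * z ^ 15 + 596 * z ^ 16 + 598 * z ^ 17 + 601 * z ^ 18
        + 603 * z ^ 19 + 591 * z ^ 20 + 595 * z ^ 21 + 600 * z ^ 22 + 598 * z ^ 23 + 592 * z ^ 24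
        + 595 * z ^ 25 + 592 * z ^ 26) * h1
  have s10 :
      (1797 + 1799 * z + 1784 * z ^ 2 + 1793 * z ^ 3 + 1783 * z ^ 4 + 1789 * z ^ 5 + 1790 * z ^ 6
        + 1794 * z ^ 7 + 1787 * z ^ 8 + 1782 * z ^ 9 + 1785 * z ^ 10) *
        (1 + z ^ 10 + (z ^ 10) ^ 3) =
      (5389 + 5366 * z + 5366 * z ^ 2 + 5366 * z ^ 3 + 5366 * z ^ 4 + 5366 * z ^ 5 + 5366 * z ^ 6
        + 5366 * z ^ 7 + 5366 * z ^ 8 + 5366 * z ^ 9 + 5366 * z ^ 10 : R) := by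
    linear_combination
      (3592 + 3567 * z + 3582 * z ^ 2 + 3573 * z ^ 3 + 3583 * z ^ 4 + 3577 * z ^ 5 + 3576 * z ^ 6
        + 3572 * z ^ 7 + 3579 * z ^ 8 + 3584 * z ^ 9 + 1784 * z ^ 10 + 1793 * z ^ 11
        + 1783 * z ^ 12 + 1789 * z ^ 13 + 1790 * z ^ 14 + 1794 * z ^ 15 + 1787 * z ^ 16
        + 1782 * z ^ 17 + 1785 * z ^ 18 + 1797 * z ^ 19 + 1799 * z ^ 20 + 1784 * z ^ 21
        + 1793 * z ^ 22 + 1783 * z ^ 23 + 1789 * z ^ 24 + 1790 * z ^ 25 + 1794 * z ^ 26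
        + 1787 * z ^ 27 + 1782 * z ^ 28 + 1785 * z ^ 29) * h1
  have fin :
      (5389 + 5366 * z + 5366 * z ^ 2 + 5366 * z ^ 3 + 5366 * z ^ 4 + 5366 * z ^ 5 + 5366 * z ^ 6
        + 5366 * z ^ 7 + 5366 * z ^ 8 + 5366 * z ^ 9 + 5366 * z ^ 10 : R) = 23 := by
    linear_combination (5366 : R) * h2'
  refine (Cert11.prod_Icc_aux (fun k => 1 + z ^ k + (z ^ k) ^ 3)).trans ?_
  show (1 + z ^ 1 + (z ^ 1) ^ 3) *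
      (1 + z ^ 2 + (z ^ 2) ^ 3) *
      (1 + z ^ 3 + (z ^ 3) ^ 3) *
      (1 + z ^ 4 + (z ^ 4) ^ 3) *
      (1 + z ^ 5 + (z ^ 5) ^ 3) *
      (1 + z ^ 6 + (z ^ 6) ^ 3) *
      (1 + z ^ 7 + (z ^ 7) ^ 3) *
      (1 + z ^ 8 + (z ^ 8) ^ 3) *
      (1 + z ^ 9 + (z ^ 9) ^ 3) *
      (1 + z ^ 10 + (z ^ 10) ^ 3) = 23
  rw [s1, s2, s3, s4, s5, s6, s7, s8, s9, s10, fin]

end Fermat.Agent.Kummer.PID
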