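import Fermat.Agent.Kummer.Defs

/-!
# Kummer / PID: norm certificate for `p = 13`: an element of norm `131`
(a polynomial identity modulo `z^13 = 1`, `1 + z + ⋯ + z^12 = 0`, in any commutative ring)
-/

set_option autoImplicit false

namespace Fermat.Agent.Kummer.PID

/-- Expansion of a product over `Finset.Icc 1 12`. -/
theorem Cert13_131.prod_Icc {R : Type*} [CommRing R] (g : ℕ → R) :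
    ∏ k ∈ Finset.Icc 1 12, g k =
      g 1 * g 2 * g 3 * g 4 * g 5 * g 6 * g 7 * g 8 * g 9 * g 10 * g 11 * g 12 := by
  simp only [Finset.prod_Icc_succ_top (by norm_num : (1 : ℕ) ≤ _), Finset.Icc_self,
    Finset.prod_singleton]

theorem cert13_131 {R : Type*} [CommRing R] (z : R) (h1 : z ^ 13 = 1)
    (h2 : ∑ i ∈ Finset.range 13, z ^ i = 0) :
    ∏ k ∈ Finset.Icc 1 12, (1 - z ^ k - (z ^ k) ^ 3) = 131 := by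
  have h2' : 1 + z + z ^ 2 + z ^ 3 + z ^ 4 + z ^ 5 + z ^ 6 + z ^ 7 + z ^ 8 + z ^ 9 + z ^ 10
      + z ^ 11 + z ^ 12 = 0 := by
    rw [← h2]
    simp only [Finset.sum_range_succ, Finset.sum_range_zero]
    ring
  have s1 : (1 - z ^ 1 - (z ^ 1) ^ 3) =
      1 - z - z ^ 3 := by
    ring
  have s2 : (1 - z - z ^ 3) * (1 - z ^ 2 - (z ^ 2) ^ 3) =
      1 - z - z ^ 2 + z ^ 5 - z ^ 6 + z ^ 7 + z ^ 9 := by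
    ring
  have s3 : (1 - z - z ^ 2 + z ^ 5 - z ^ 6 + z ^ 7 + z ^ 9) * (1 - z ^ 3 - (z ^ 3) ^ 3) =
      1 - 2 * z - 2 * z ^ 3 + z ^ 4 + z ^ 5 - z ^ 6 + z ^ 7 - z ^ 8 + z ^ 9 + z ^ 11
      - z ^ 12 := by
    linear_combination (-z + z ^ 2 - z ^ 3 - z ^ 5) * h1
  have s4 : (1 - 2 * z - 2 * z ^ 3 + z ^ 4 + z ^ 5 - z ^ 6 + z ^ 7 - z ^ 8 + z ^ 9 + z ^ 11
      - z ^ 12) * (1 - z ^ 4 - (z ^ 4) ^ 3) =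
      2 - 2 * z + z ^ 2 - 2 * z ^ 3 - z ^ 4 + 4 * z ^ 5 - 2 * z ^ 6 + 4 * z ^ 7 - 3 * z ^ 8
      + z ^ 11 - z ^ 12 := by
    linear_combination (1 + z ^ 2 - z ^ 4 + z ^ 5 - z ^ 6 + z ^ 7 - z ^ 8 - z ^ 10 + z ^ 11) * h1
  have s5 : (2 - 2 * z + z ^ 2 - 2 * z ^ 3 - z ^ 4 + 4 * z ^ 5 - 2 * z ^ 6 + 4 * z ^ 7 - 3 * z ^ 8
      + z ^ 11 - z ^ 12) * (1 - z ^ 5 - (z ^ 5) ^ 3) =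
      4 - z - z ^ 2 - z ^ 3 - z ^ 4 + 4 * z ^ 5 + z ^ 6 - z ^ 7 + z ^ 8 - 3 * z ^ 9 - z ^ 10
      + 3 * z ^ 11 - 5 * z ^ 12 := by
    linear_combination (2 + z - 2 * z ^ 2 + z ^ 3 + 2 * z ^ 5 + z ^ 6 - 4 * z ^ 7 + 2 * z ^ 8
      - 4 * z ^ 9 + 3 * z ^ 10 - z ^ 13 + z ^ 14) * h1
  have s6 : (4 - z - z ^ 2 - z ^ 3 - z ^ 4 + 4 * z ^ 5 + z ^ 6 - z ^ 7 + z ^ 8 - 3 * z ^ 9
      - z ^ 10 + 3 * z ^ 11 - 5 * z ^ 12) * (1 - z ^ 6 - (z ^ 6) ^ 3) =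
      4 + z + 3 * z ^ 2 - 3 * z ^ 3 + z ^ 4 + 5 * z ^ 5 - 2 * z ^ 6 + z ^ 7 + 3 * z ^ 8 - z ^ 9
      - 4 * z ^ 10 - 2 * z ^ 11 - 5 * z ^ 12 := by
    linear_combination (2 * z + 4 * z ^ 2 - 2 * z ^ 3 + 2 * z ^ 4 + z ^ 5 + z ^ 6 + z ^ 7 + z ^ 8
      + z ^ 9 - 4 * z ^ 10 - z ^ 11 + z ^ 12 - z ^ 13 + 3 * z ^ 14 + z ^ 15 - 3 * z ^ 16
      + 5 * z ^ 17) * h1
  have s7 : (4 + z + 3 * z ^ 2 - 3 * z ^ 3 + z ^ 4 + 5 * z ^ 5 - 2 * z ^ 6 + z ^ 7 + 3 * z ^ 8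
      - z ^ 9 - 4 * z ^ 10 - 2 * z ^ 11 - 5 * z ^ 12) * (1 - z ^ 7 - (z ^ 7) ^ 3) =
      1 + 2 * z - z ^ 2 - 5 * z ^ 3 + 6 * z ^ 4 + 11 * z ^ 5 + 5 * z ^ 6 + 2 * z ^ 7 - 2 * z ^ 8
      - 5 * z ^ 9 - 4 * z ^ 10 - 11 * z ^ 12 := by
    linear_combination (-3 + z - 4 * z ^ 2 - 2 * z ^ 3 + 5 * z ^ 4 + 6 * z ^ 5 + 7 * z ^ 6
      + 5 * z ^ 7 - 4 * z ^ 8 - z ^ 9 - 3 * z ^ 10 + 3 * z ^ 11 - z ^ 12 - 5 * z ^ 13 + 2 * z ^ 14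
      - z ^ 15 - 3 * z ^ 16 + z ^ 17 + 4 * z ^ 18 + 2 * z ^ 19 + 5 * z ^ 20) * h1
  have s8 : (1 + 2 * z - z ^ 2 - 5 * z ^ 3 + 6 * z ^ 4 + 11 * z ^ 5 + 5 * z ^ 6 + 2 * z ^ 7
      - 2 * z ^ 8 - 5 * z ^ 9 - 4 * z ^ 10 - 11 * z ^ 12) * (1 - z ^ 8 - (z ^ 8) ^ 3) =
      -9 + 2 * z - 9 * z ^ 2 - 14 * z ^ 3 + 6 * z ^ 4 + 13 * z ^ 5 + 7 * z ^ 6 + 18 * z ^ 7
      + z ^ 8 - 7 * z ^ 9 + 8 * z ^ 10 + 4 * z ^ 11 - 19 * z ^ 12 := by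
    linear_combination (-10 - 8 * z ^ 2 - 9 * z ^ 3 + 2 * z ^ 5 + 2 * z ^ 6 + 16 * z ^ 7
      + 4 * z ^ 8 + 11 * z ^ 10 - z ^ 11 - 2 * z ^ 12 + z ^ 13 + 5 * z ^ 14 - 6 * z ^ 15
      - 11 * z ^ 16 - 5 * z ^ 17 - 2 * z ^ 18 + 2 * z ^ 19 + 5 * z ^ 20 + 4 * z ^ 21
      + 11 * z ^ 23) * h1
  have s9 : (-9 + 2 * z - 9 * z ^ 2 - 14 * z ^ 3 + 6 * z ^ 4 + 13 * z ^ 5 + 7 * z ^ 6 + 18 * z ^ 7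
      + z ^ 8 - 7 * z ^ 9 + 8 * z ^ 10 + 4 * z ^ 11 - 19 * z ^ 12) * (1 - z ^ 9 - (z ^ 9) ^ 3) =
      4 - 2 * z - 18 * z ^ 2 - 23 * z ^ 3 + 19 * z ^ 4 + 14 * z ^ 5 - 14 * z ^ 6 + 7 * z ^ 7
      + 2 * z ^ 8 + z ^ 9 + 13 * z ^ 10 + 5 * z ^ 11 - 9 * z ^ 12 := by
    linear_combination (13 - 4 * z - 9 * z ^ 2 - 9 * z ^ 3 + 13 * z ^ 4 + z ^ 5 - 21 * z ^ 6
      - 11 * z ^ 7 + z ^ 8 - z ^ 9 + 7 * z ^ 10 - 8 * z ^ 11 - 4 * z ^ 12 + 19 * z ^ 13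
      + 9 * z ^ 14 - 2 * z ^ 15 + 9 * z ^ 16 + 14 * z ^ 17 - 6 * z ^ 18 - 13 * z ^ 19 - 7 * z ^ 20
      - 18 * z ^ 21 - z ^ 22 + 7 * z ^ 23 - 8 * z ^ 24 - 4 * z ^ 25 + 19 * z ^ 26) * h1
  have s10 : (4 - 2 * z - 18 * z ^ 2 - 23 * z ^ 3 + 19 * z ^ 4 + 14 * z ^ 5 - 14 * z ^ 6
      + 7 * z ^ 7 + 2 * z ^ 8 + z ^ 9 + 13 * z ^ 10 + 5 * z ^ 11 - 9 * z ^ 12)
      * (1 - z ^ 10 - (z ^ 10) ^ 3) =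
      26 - 34 * z - 37 * z ^ 2 + 8 * z ^ 4 + 14 * z ^ 5 + 3 * z ^ 6 + 17 * z ^ 7 - 22 * z ^ 8
      - 4 * z ^ 9 + 23 * z ^ 10 + 7 * z ^ 12 := by
    linear_combination (22 - 32 * z - 19 * z ^ 2 + 23 * z ^ 3 - 11 * z ^ 4 + 17 * z ^ 6
      + 10 * z ^ 7 - 24 * z ^ 8 - 5 * z ^ 9 + 14 * z ^ 10 - 7 * z ^ 11 - 2 * z ^ 12 - z ^ 13
      - 13 * z ^ 14 - 5 * z ^ 15 + 9 * z ^ 16 - 4 * z ^ 17 + 2 * z ^ 18 + 18 * z ^ 19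
      + 23 * z ^ 20 - 19 * z ^ 21 - 14 * z ^ 22 + 14 * z ^ 23 - 7 * z ^ 24 - 2 * z ^ 25 - z ^ 26
      - 13 * z ^ 27 - 5 * z ^ 28 + 9 * z ^ 29) * h1
  have s11 : (26 - 34 * z - 37 * z ^ 2 + 8 * z ^ 4 + 14 * z ^ 5 + 3 * z ^ 6 + 17 * z ^ 7
      - 22 * z ^ 8 - 4 * z ^ 9 + 23 * z ^ 10 + 7 * z ^ 12) * (1 - z ^ 11 - (z ^ 11) ^ 3) =
      60 - 51 * z - 23 * z ^ 2 - 10 * z ^ 3 - 18 * z ^ 4 - 3 * z ^ 5 + 18 * z ^ 6 - 5 * z ^ 7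
      - 11 * z ^ 8 + 33 * z ^ 9 + 16 * z ^ 10 - 34 * z ^ 11 + 27 * z ^ 12 := by
    linear_combination (34 - 17 * z + 14 * z ^ 2 - 10 * z ^ 3 - 26 * z ^ 4 - 17 * z ^ 5
      + 15 * z ^ 6 - 22 * z ^ 7 + 11 * z ^ 8 + 37 * z ^ 9 - 7 * z ^ 10 - 8 * z ^ 11 - 14 * z ^ 12
      - 3 * z ^ 13 - 17 * z ^ 14 + 22 * z ^ 15 + 4 * z ^ 16 - 23 * z ^ 17 - 7 * z ^ 19
      - 26 * z ^ 20 + 34 * z ^ 21 + 37 * z ^ 22 - 8 * z ^ 24 - 14 * z ^ 25 - 3 * z ^ 26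
      - 17 * z ^ 27 + 22 * z ^ 28 + 4 * z ^ 29 - 23 * z ^ 30 - 7 * z ^ 32) * h1
  have s12 : (60 - 51 * z - 23 * z ^ 2 - 10 * z ^ 3 - 18 * z ^ 4 - 3 * z ^ 5 + 18 * z ^ 6
      - 5 * z ^ 7 - 11 * z ^ 8 + 33 * z ^ 9 + 16 * z ^ 10 - 34 * z ^ 11 + 27 * z ^ 12)
      * (1 - z ^ 12 - (z ^ 12) ^ 3) =
      121 - 10 * z - 10 * z ^ 2 - 10 * z ^ 3 - 10 * z ^ 4 - 10 * z ^ 5 - 10 * z ^ 6 - 10 * z ^ 7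
      - 10 * z ^ 8 - 10 * z ^ 9 - 10 * z ^ 10 - 10 * z ^ 11 - 10 * z ^ 12 := by
    linear_combination (61 + 41 * z + 13 * z ^ 2 + 8 * z ^ 4 - 7 * z ^ 5 - 28 * z ^ 6 - 5 * z ^ 7
      + z ^ 8 - 43 * z ^ 9 - 26 * z ^ 10 + 24 * z ^ 11 + 23 * z ^ 12 + 10 * z ^ 13 + 18 * z ^ 14
      + 3 * z ^ 15 - 18 * z ^ 16 + 5 * z ^ 17 + 11 * z ^ 18 - 33 * z ^ 19 - 16 * z ^ 20
      + 34 * z ^ 21 - 27 * z ^ 22 - 60 * z ^ 23 + 51 * z ^ 24 + 23 * z ^ 25 + 10 * z ^ 26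
      + 18 * z ^ 27 + 3 * z ^ 28 - 18 * z ^ 29 + 5 * z ^ 30 + 11 * z ^ 31 - 33 * z ^ 32
      - 16 * z ^ 33 + 34 * z ^ 34 - 27 * z ^ 35) * h1
  have fin : 121 - 10 * z - 10 * z ^ 2 - 10 * z ^ 3 - 10 * z ^ 4 - 10 * z ^ 5 - 10 * z ^ 6
      - 10 * z ^ 7 - 10 * z ^ 8 - 10 * z ^ 9 - 10 * z ^ 10 - 10 * z ^ 11 - 10 * z ^ 12 = 131 := by
    linear_combination (-10 : R) * h2'
  have e : ∏ k ∈ Finset.Icc 1 12, (1 - z ^ k - (z ^ k) ^ 3) =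
      (1 - z ^ 1 - (z ^ 1) ^ 3) *
      (1 - z ^ 2 - (z ^ 2) ^ 3) *
      (1 - z ^ 3 - (z ^ 3) ^ 3) *
      (1 - z ^ 4 - (z ^ 4) ^ 3) *
      (1 - z ^ 5 - (z ^ 5) ^ 3) *
      (1 - z ^ 6 - (z ^ 6) ^ 3) *
      (1 - z ^ 7 - (z ^ 7) ^ 3) *
      (1 - z ^ 8 - (z ^ 8) ^ 3) *
      (1 - z ^ 9 - (z ^ 9) ^ 3) *
      (1 - z ^ 10 - (z ^ 10) ^ 3) *
      (1 - z ^ 11 - (z ^ 11) ^ 3) *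
      (1 - z ^ 12 - (z ^ 12) ^ 3) :=
    Cert13_131.prod_Icc (fun k => 1 - z ^ k - (z ^ k) ^ 3)
  rw [e, s1, s2, s3, s4, s5, s6, s7, s8, s9, s10, s11, s12, fin]

end Fermat.Agent.Kummer.PID
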