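import Fermat.Agent.Kummer.Defs

/-!
# Kummer / PID: norm certificate for `p = 13`: an element of norm `157`
(a polynomial identity modulo `z^13 = 1`, `1 + z + ⋯ + z^12 = 0`, in any commutative ring)

The proof multiplies the twelve factors one at a time, reducing modulo `z ^ 13 = 1` after each
multiplication (the steps were generated by exact integer polynomial arithmetic).
-/

set_option autoImplicit false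

namespace Fermat.Agent.Kummer.PID

/-- A product over `Finset.Icc 1 12` written out as a left-nested product of twelve factors. -/
theorem Cert13_157.prod_Icc_one_twelve {R : Type*} [CommRing R] (g : ℕ → R) :
    ∏ k ∈ Finset.Icc 1 12, g k =
      g 1 * g 2 * g 3 * g 4 * g 5 * g 6 * g 7 * g 8 * g 9 * g 10 * g 11 * g 12 := by
  have hI : Finset.Icc 1 12 = Finset.Ico 1 13 := by decide
  rw [hI, Finset.prod_Ico_eq_prod_range]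
  simp [Finset.prod_range_succ]

theorem Cert13_157.step1 {R : Type*} [CommRing R] (z : R) (h1 : z ^ 13 = 1) :
    (1 - z ^ 1 + (z ^ 1) ^ 2 + (z ^ 1) ^ 4) =
      1 - z + z ^ 2 + z ^ 4 := by
  linear_combination
    (0) * h1

theorem Cert13_157.step2 {R : Type*} [CommRing R] (z : R) (h1 : z ^ 13 = 1) :
    (1 - z + z ^ 2 + z ^ 4) *
      (1 - z ^ 2 + (z ^ 2) ^ 2 + (z ^ 2) ^ 4) =
      1 - z + z ^ 3 + z ^ 4 - z ^ 5 + 2 * z ^ 8 - z ^ 9 + z ^ 10 + z ^ 12 := by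
  linear_combination
    (0) * h1

theorem Cert13_157.step3 {R : Type*} [CommRing R] (z : R) (h1 : z ^ 13 = 1) :
    (1 - z + z ^ 3 + z ^ 4 - z ^ 5 + 2 * z ^ 8 - z ^ 9 + z ^ 10 + z ^ 12) *
      (1 - z ^ 3 + (z ^ 3) ^ 2 + (z ^ 3) ^ 4) =
      -1 + z - z ^ 2 + 2 * z ^ 3 + z ^ 4 + 2 * z ^ 8 + z ^ 9 + 2 * z ^ 10 - 2 * z ^ 11 +
        3 * z ^ 12 := by
  linear_combination
    (-2 + 2 * z - z ^ 2 + 2 * z ^ 3 - z ^ 4 + z ^ 5 + 2 * z ^ 7 - z ^ 8 + z ^ 9 + z ^ 11) * h1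

theorem Cert13_157.step4 {R : Type*} [CommRing R] (z : R) (h1 : z ^ 13 = 1) :
    (-1 + z - z ^ 2 + 2 * z ^ 3 + z ^ 4 + 2 * z ^ 8 + z ^ 9 + 2 * z ^ 10 - 2 * z ^ 11 +
      3 * z ^ 12) *
      (1 - z ^ 4 + (z ^ 4) ^ 2 + (z ^ 4) ^ 4) =
      -3 * z + 4 * z ^ 2 + 4 * z ^ 4 + z ^ 6 + 2 * z ^ 7 + 2 * z ^ 9 + z ^ 10 +
        2 * z ^ 11 + 3 * z ^ 12 := by
  linear_combination
    (1 - 4 * z + 5 * z ^ 2 - 2 * z ^ 3 + 2 * z ^ 4 + z ^ 5 + 4 * z ^ 7 + 2 * z ^ 11 +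
      z ^ 12 + 2 * z ^ 13 - 2 * z ^ 14 + 3 * z ^ 15) * h1

theorem Cert13_157.step5 {R : Type*} [CommRing R] (z : R) (h1 : z ^ 13 = 1) :
    (-3 * z + 4 * z ^ 2 + 4 * z ^ 4 + z ^ 6 + 2 * z ^ 7 + 2 * z ^ 9 + z ^ 10 +
      2 * z ^ 11 + 3 * z ^ 12) *
      (1 - z ^ 5 + (z ^ 5) ^ 2 + (z ^ 5) ^ 4) =
      1 + z + 3 * z ^ 2 + z ^ 3 + 4 * z ^ 4 + 2 * z ^ 5 + 9 * z ^ 6 - z ^ 7 - z ^ 8 +
        5 * z ^ 9 + z ^ 10 + 2 * z ^ 11 + 5 * z ^ 12 := by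
  linear_combination
    (1 + 4 * z - z ^ 2 + z ^ 3 + 2 * z ^ 5 + 5 * z ^ 6 + z ^ 7 - z ^ 8 + 7 * z ^ 9 +
      4 * z ^ 11 + z ^ 13 + 2 * z ^ 14 + 2 * z ^ 16 + z ^ 17 + 2 * z ^ 18 + 3 * z ^ 19) * h1

theorem Cert13_157.step6 {R : Type*} [CommRing R] (z : R) (h1 : z ^ 13 = 1) :
    (1 + z + 3 * z ^ 2 + z ^ 3 + 4 * z ^ 4 + 2 * z ^ 5 + 9 * z ^ 6 - z ^ 7 - z ^ 8 +
      5 * z ^ 9 + z ^ 10 + 2 * z ^ 11 + 5 * z ^ 12) *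
      (1 - z ^ 6 + (z ^ 6) ^ 2 + (z ^ 6) ^ 4) =
      6 + 6 * z + 3 * z ^ 2 + 6 * z ^ 3 + 13 * z ^ 4 + 5 * z ^ 5 + 6 * z ^ 6 + 2 * z ^ 7 +
        2 * z ^ 8 + 7 * z ^ 9 + 4 * z ^ 10 + 6 * z ^ 11 - 2 * z ^ 12 := by
  linear_combination
    (5 + 5 * z + 5 * z ^ 3 + 9 * z ^ 4 + 3 * z ^ 5 - 2 * z ^ 6 + 4 * z ^ 7 + 6 * z ^ 8 +
      3 * z ^ 9 + 7 * z ^ 10 + 6 * z ^ 11 + z ^ 12 + 3 * z ^ 13 + z ^ 14 + 4 * z ^ 15 +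
      2 * z ^ 16 + 9 * z ^ 17 - z ^ 18 - z ^ 19 + 5 * z ^ 20 + z ^ 21 + 2 * z ^ 22 +
      5 * z ^ 23) * h1

theorem Cert13_157.step7 {R : Type*} [CommRing R] (z : R) (h1 : z ^ 13 = 1) :
    (6 + 6 * z + 3 * z ^ 2 + 6 * z ^ 3 + 13 * z ^ 4 + 5 * z ^ 5 + 6 * z ^ 6 + 2 * z ^ 7 +
      2 * z ^ 8 + 7 * z ^ 9 + 4 * z ^ 10 + 6 * z ^ 11 - 2 * z ^ 12) *
      (1 - z ^ 7 + (z ^ 7) ^ 2 + (z ^ 7) ^ 4) =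
      4 + 8 * z + 13 * z ^ 2 + 8 * z ^ 3 + 18 * z ^ 4 + 18 * z ^ 5 + 26 * z ^ 6 +
        7 * z ^ 7 + 4 * z ^ 8 + 8 * z ^ 9 + 7 * z ^ 10 + 4 * z ^ 11 + 3 * z ^ 12 := by
  linear_combination
    (-2 + 2 * z + 10 * z ^ 2 + 2 * z ^ 3 + 5 * z ^ 4 + 13 * z ^ 5 + 20 * z ^ 6 +
      11 * z ^ 7 + 8 * z ^ 8 + 4 * z ^ 9 + 9 * z ^ 10 + 11 * z ^ 11 + 10 * z ^ 12 +
      4 * z ^ 13 - 2 * z ^ 14 + 6 * z ^ 15 + 6 * z ^ 16 + 3 * z ^ 17 + 6 * z ^ 18 +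
      13 * z ^ 19 + 5 * z ^ 20 + 6 * z ^ 21 + 2 * z ^ 22 + 2 * z ^ 23 + 7 * z ^ 24 +
      4 * z ^ 25 + 6 * z ^ 26 - 2 * z ^ 27) * h1

theorem Cert13_157.step8 {R : Type*} [CommRing R] (z : R) (h1 : z ^ 13 = 1) :
    (4 + 8 * z + 13 * z ^ 2 + 8 * z ^ 3 + 18 * z ^ 4 + 18 * z ^ 5 + 26 * z ^ 6 +
      7 * z ^ 7 + 4 * z ^ 8 + 8 * z ^ 9 + 7 * z ^ 10 + 4 * z ^ 11 + 3 * z ^ 12) *
      (1 - z ^ 8 + (z ^ 8) ^ 2 + (z ^ 8) ^ 4) =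
      -10 * z + 17 * z ^ 2 + 15 * z ^ 3 + 22 * z ^ 4 + 27 * z ^ 5 + 34 * z ^ 6 +
        30 * z ^ 7 + 31 * z ^ 8 + 34 * z ^ 9 + 19 * z ^ 10 + 18 * z ^ 11 + 19 * z ^ 12 := by
  linear_combination
    (-4 - 18 * z + 4 * z ^ 2 + 7 * z ^ 3 + 4 * z ^ 4 + 9 * z ^ 5 + 8 * z ^ 6 +
      23 * z ^ 7 + 31 * z ^ 8 + 34 * z ^ 9 + 25 * z ^ 10 + 22 * z ^ 11 + 34 * z ^ 12 +
      14 * z ^ 13 + 8 * z ^ 14 + 11 * z ^ 15 + 7 * z ^ 16 + 4 * z ^ 17 + 3 * z ^ 18 +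
      4 * z ^ 19 + 8 * z ^ 20 + 13 * z ^ 21 + 8 * z ^ 22 + 18 * z ^ 23 + 18 * z ^ 24 +
      26 * z ^ 25 + 7 * z ^ 26 + 4 * z ^ 27 + 8 * z ^ 28 + 7 * z ^ 29 + 4 * z ^ 30 +
      3 * z ^ 31) * h1

theorem Cert13_157.step9 {R : Type*} [CommRing R] (z : R) (h1 : z ^ 13 = 1) :
    (-10 * z + 17 * z ^ 2 + 15 * z ^ 3 + 22 * z ^ 4 + 27 * z ^ 5 + 34 * z ^ 6 +
      30 * z ^ 7 + 31 * z ^ 8 + 34 * z ^ 9 + 19 * z ^ 10 + 18 * z ^ 11 + 19 * z ^ 12) *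
      (1 - z ^ 9 + (z ^ 9) ^ 2 + (z ^ 9) ^ 4) =
      24 + 19 * z + 29 * z ^ 2 + 37 * z ^ 3 + 40 * z ^ 4 + 24 * z ^ 5 + 39 * z ^ 6 +
        48 * z ^ 7 + 45 * z ^ 8 + 75 * z ^ 9 + 56 * z ^ 10 + 25 * z ^ 11 + 51 * z ^ 12 := by
  linear_combination
    (24 + 29 * z + 12 * z ^ 2 + 22 * z ^ 3 + 18 * z ^ 4 - 3 * z ^ 5 + 5 * z ^ 6 +
      18 * z ^ 7 + 14 * z ^ 8 + 41 * z ^ 9 + 27 * z ^ 10 + 24 * z ^ 11 + 47 * z ^ 12 +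
      46 * z ^ 13 + 56 * z ^ 14 + 46 * z ^ 15 + 52 * z ^ 16 + 49 * z ^ 17 + 31 * z ^ 18 +
      34 * z ^ 19 + 19 * z ^ 20 + 18 * z ^ 21 + 19 * z ^ 22 - 10 * z ^ 24 + 17 * z ^ 25 +
      15 * z ^ 26 + 22 * z ^ 27 + 27 * z ^ 28 + 34 * z ^ 29 + 30 * z ^ 30 + 31 * z ^ 31 +
      34 * z ^ 32 + 19 * z ^ 33 + 18 * z ^ 34 + 19 * z ^ 35) * h1

theorem Cert13_157.step10 {R : Type*} [CommRing R] (z : R) (h1 : z ^ 13 = 1) :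
    (24 + 19 * z + 29 * z ^ 2 + 37 * z ^ 3 + 40 * z ^ 4 + 24 * z ^ 5 + 39 * z ^ 6 +
      48 * z ^ 7 + 45 * z ^ 8 + 75 * z ^ 9 + 56 * z ^ 10 + 25 * z ^ 11 + 51 * z ^ 12) *
      (1 - z ^ 10 + (z ^ 10) ^ 2 + (z ^ 10) ^ 4) =
      77 + 51 * z + 69 * z ^ 2 + 102 * z ^ 3 + 85 * z ^ 4 + 44 * z ^ 5 + 39 * z ^ 6 +
        55 * z ^ 7 + 87 * z ^ 8 + 98 * z ^ 9 + 144 * z ^ 10 + 102 * z ^ 11 + 71 * z ^ 12 := by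
  linear_combination
    (53 + 32 * z + 40 * z ^ 2 + 65 * z ^ 3 + 45 * z ^ 4 + 20 * z ^ 5 + 7 * z ^ 7 +
      42 * z ^ 8 + 23 * z ^ 9 + 112 * z ^ 10 + 96 * z ^ 11 + 49 * z ^ 12 + 90 * z ^ 13 +
      72 * z ^ 14 + 64 * z ^ 15 + 104 * z ^ 16 + 93 * z ^ 17 + 65 * z ^ 18 + 75 * z ^ 19 +
      39 * z ^ 20 + 48 * z ^ 21 + 45 * z ^ 22 + 75 * z ^ 23 + 56 * z ^ 24 + 25 * z ^ 25 +
      51 * z ^ 26 + 24 * z ^ 27 + 19 * z ^ 28 + 29 * z ^ 29 + 37 * z ^ 30 + 40 * z ^ 31 +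
      24 * z ^ 32 + 39 * z ^ 33 + 48 * z ^ 34 + 45 * z ^ 35 + 75 * z ^ 36 + 56 * z ^ 37 +
      25 * z ^ 38 + 51 * z ^ 39) * h1

theorem Cert13_157.step11 {R : Type*} [CommRing R] (z : R) (h1 : z ^ 13 = 1) :
    (77 + 51 * z + 69 * z ^ 2 + 102 * z ^ 3 + 85 * z ^ 4 + 44 * z ^ 5 + 39 * z ^ 6 +
      55 * z ^ 7 + 87 * z ^ 8 + 98 * z ^ 9 + 144 * z ^ 10 + 102 * z ^ 11 + 71 * z ^ 12) *
      (1 - z ^ 11 + (z ^ 11) ^ 2 + (z ^ 11) ^ 4) =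
      180 + 91 * z + 167 * z ^ 2 + 215 * z ^ 3 + 204 * z ^ 4 + 164 * z ^ 5 + 147 * z ^ 6 +
        128 * z ^ 7 + 116 * z ^ 8 + 158 * z ^ 9 + 168 * z ^ 10 + 133 * z ^ 11 +
        177 * z ^ 12 := by
  linear_combination
    (103 + 40 * z + 98 * z ^ 2 + 113 * z ^ 3 + 119 * z ^ 4 + 120 * z ^ 5 + 108 * z ^ 6 +
      73 * z ^ 7 + 29 * z ^ 8 + 60 * z ^ 9 + 24 * z ^ 10 + 108 * z ^ 11 + 157 * z ^ 12 +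
      172 * z ^ 13 + 142 * z ^ 14 + 183 * z ^ 15 + 157 * z ^ 16 + 158 * z ^ 17 +
      175 * z ^ 18 + 195 * z ^ 19 + 171 * z ^ 20 + 173 * z ^ 21 + 85 * z ^ 22 +
      44 * z ^ 23 + 39 * z ^ 24 + 55 * z ^ 25 + 87 * z ^ 26 + 98 * z ^ 27 + 144 * z ^ 28 +
      102 * z ^ 29 + 71 * z ^ 30 + 77 * z ^ 31 + 51 * z ^ 32 + 69 * z ^ 33 +
      102 * z ^ 34 + 85 * z ^ 35 + 44 * z ^ 36 + 39 * z ^ 37 + 55 * z ^ 38 + 87 * z ^ 39 +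
      98 * z ^ 40 + 144 * z ^ 41 + 102 * z ^ 42 + 71 * z ^ 43) * h1

theorem Cert13_157.step12 {R : Type*} [CommRing R] (z : R) (h1 : z ^ 13 = 1) :
    (180 + 91 * z + 167 * z ^ 2 + 215 * z ^ 3 + 204 * z ^ 4 + 164 * z ^ 5 + 147 * z ^ 6 +
      128 * z ^ 7 + 116 * z ^ 8 + 158 * z ^ 9 + 168 * z ^ 10 + 133 * z ^ 11 +
      177 * z ^ 12) *
      (1 - z ^ 12 + (z ^ 12) ^ 2 + (z ^ 12) ^ 4) =
      460 + 303 * z + 303 * z ^ 2 + 303 * z ^ 3 + 303 * z ^ 4 + 303 * z ^ 5 +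
        303 * z ^ 6 + 303 * z ^ 7 + 303 * z ^ 8 + 303 * z ^ 9 + 303 * z ^ 10 +
        303 * z ^ 11 + 303 * z ^ 12 := by
  linear_combination
    (280 + 212 * z + 136 * z ^ 2 + 88 * z ^ 3 + 99 * z ^ 4 + 139 * z ^ 5 + 156 * z ^ 6 +
      175 * z ^ 7 + 187 * z ^ 8 + 145 * z ^ 9 + 135 * z ^ 10 + 170 * z ^ 11 +
      306 * z ^ 12 + 371 * z ^ 13 + 379 * z ^ 14 + 351 * z ^ 15 + 292 * z ^ 16 +
      263 * z ^ 17 + 286 * z ^ 18 + 284 * z ^ 19 + 291 * z ^ 20 + 345 * z ^ 21 +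
      313 * z ^ 22 + 268 * z ^ 23 + 167 * z ^ 24 + 215 * z ^ 25 + 204 * z ^ 26 +
      164 * z ^ 27 + 147 * z ^ 28 + 128 * z ^ 29 + 116 * z ^ 30 + 158 * z ^ 31 +
      168 * z ^ 32 + 133 * z ^ 33 + 177 * z ^ 34 + 180 * z ^ 35 + 91 * z ^ 36 +
      167 * z ^ 37 + 215 * z ^ 38 + 204 * z ^ 39 + 164 * z ^ 40 + 147 * z ^ 41 +
      128 * z ^ 42 + 116 * z ^ 43 + 158 * z ^ 44 + 168 * z ^ 45 + 133 * z ^ 46 +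
      177 * z ^ 47) * h1

theorem Cert13_157.final {R : Type*} [CommRing R] (z : R)
    (h2' : 1 + z + z ^ 2 + z ^ 3 + z ^ 4 + z ^ 5 + z ^ 6 + z ^ 7 + z ^ 8 +
      z ^ 9 + z ^ 10 + z ^ 11 + z ^ 12 = 0) :
    460 + 303 * z + 303 * z ^ 2 + 303 * z ^ 3 + 303 * z ^ 4 + 303 * z ^ 5 + 303 * z ^ 6 +
      303 * z ^ 7 + 303 * z ^ 8 + 303 * z ^ 9 + 303 * z ^ 10 + 303 * z ^ 11 +
      303 * z ^ 12 = 157 := by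
  linear_combination (303) * h2'

theorem cert13_157 {R : Type*} [CommRing R] (z : R) (h1 : z ^ 13 = 1)
    (h2 : ∑ i ∈ Finset.range 13, z ^ i = 0) :
    ∏ k ∈ Finset.Icc 1 12, (1 - z ^ k + (z ^ k) ^ 2 + (z ^ k) ^ 4) = 157 := by
  have h2' : 1 + z + z ^ 2 + z ^ 3 + z ^ 4 + z ^ 5 + z ^ 6 + z ^ 7 + z ^ 8 +
      z ^ 9 + z ^ 10 + z ^ 11 + z ^ 12 = 0 := by
    simpa [Finset.sum_range_succ] using h2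
  rw [Cert13_157.prod_Icc_one_twelve,
    Cert13_157.step1 z h1, Cert13_157.step2 z h1, Cert13_157.step3 z h1, Cert13_157.step4 z h1,
    Cert13_157.step5 z h1, Cert13_157.step6 z h1, Cert13_157.step7 z h1, Cert13_157.step8 z h1,
    Cert13_157.step9 z h1, Cert13_157.step10 z h1, Cert13_157.step11 z h1,
    Cert13_157.step12 z h1]
  exact Cert13_157.final z h2'

end Fermat.Agent.Kummer.PID
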