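import Fermat.Agent.Kummer.Defs

/-!
# Kummer / PID: norm certificate for `p = 13`: an element of norm `27`
(a polynomial identity modulo `z^13 = 1`, `1 + z + ⋯ + z^12 = 0`, in any commutative ring)
-/

set_option autoImplicit false

namespace Fermat.Agent.Kummer.PID

theorem Cert13_27.prod_expand {R : Type*} [CommRing R] (z : R) :
    ∏ k ∈ Finset.Icc 1 12, (1 + z ^ k - (z ^ k) ^ 3) =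
      (1 + z ^ 1 - (z ^ 1) ^ 3) *
      (1 + z ^ 2 - (z ^ 2) ^ 3) *
      (1 + z ^ 3 - (z ^ 3) ^ 3) *
      (1 + z ^ 4 - (z ^ 4) ^ 3) *
      (1 + z ^ 5 - (z ^ 5) ^ 3) *
      (1 + z ^ 6 - (z ^ 6) ^ 3) *
      (1 + z ^ 7 - (z ^ 7) ^ 3) *
      (1 + z ^ 8 - (z ^ 8) ^ 3) *
      (1 + z ^ 9 - (z ^ 9) ^ 3) *
      (1 + z ^ 10 - (z ^ 10) ^ 3) *
      (1 + z ^ 11 - (z ^ 11) ^ 3) *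
      (1 + z ^ 12 - (z ^ 12) ^ 3) := by
  rw [Finset.prod_Icc_succ_top (show 1 ≤ 11 + 1 by norm_num),
    Finset.prod_Icc_succ_top (show 1 ≤ 10 + 1 by norm_num),
    Finset.prod_Icc_succ_top (show 1 ≤ 9 + 1 by norm_num),
    Finset.prod_Icc_succ_top (show 1 ≤ 8 + 1 by norm_num),
    Finset.prod_Icc_succ_top (show 1 ≤ 7 + 1 by norm_num),
    Finset.prod_Icc_succ_top (show 1 ≤ 6 + 1 by norm_num),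
    Finset.prod_Icc_succ_top (show 1 ≤ 5 + 1 by norm_num),
    Finset.prod_Icc_succ_top (show 1 ≤ 4 + 1 by norm_num),
    Finset.prod_Icc_succ_top (show 1 ≤ 3 + 1 by norm_num),
    Finset.prod_Icc_succ_top (show 1 ≤ 2 + 1 by norm_num),
    Finset.prod_Icc_succ_top (show 1 ≤ 1 + 1 by norm_num),
    Finset.Icc_self, Finset.prod_singleton]

theorem Cert13_27.step1 {R : Type*} [CommRing R] (z : R) (h1 : z ^ 13 = 1) :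
    (1 + z ^ 1 - (z ^ 1) ^ 3) =
      1 + 1 * z - 1 * z ^ 3 := by
  linear_combination ((0 : R)) * h1

theorem Cert13_27.step2 {R : Type*} [CommRing R] (z : R) (h1 : z ^ 13 = 1) :
    (1 + 1 * z - 1 * z ^ 3) *
      (1 + z ^ 2 - (z ^ 2) ^ 3) =
      1 + 1 * z + 1 * z ^ 2 - 1 * z ^ 5 - 1 * z ^ 6 - 1 * z ^ 7 + 1 * z ^ 9 := by
  linear_combination ((0 : R)) * h1

theorem Cert13_27.step3 {R : Type*} [CommRing R] (z : R) (h1 : z ^ 13 = 1) :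
    (1 + 1 * z + 1 * z ^ 2 - 1 * z ^ 5 - 1 * z ^ 6 - 1 * z ^ 7 + 1 * z ^ 9) *
      (1 + z ^ 3 - (z ^ 3) ^ 3) =
      1 + 2 * z + 2 * z ^ 2 + 2 * z ^ 3 + 1 * z ^ 4 - 1 * z ^ 5 - 1 * z ^ 6 - 1 * z ^ 7 - 1 * z ^ 8 - 1 * z ^ 9 - 2 * z ^ 10 - 1 * z ^ 11 + 1 * z ^ 12 := by
  linear_combination (1 * z + 1 * z ^ 2 + 1 * z ^ 3 - 1 * z ^ 5) * h1

theorem Cert13_27.step4 {R : Type*} [CommRing R] (z : R) (h1 : z ^ 13 = 1) :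
    (1 + 2 * z + 2 * z ^ 2 + 2 * z ^ 3 + 1 * z ^ 4 - 1 * z ^ 5 - 1 * z ^ 6 - 1 * z ^ 7 - 1 * z ^ 8 - 1 * z ^ 9 - 2 * z ^ 10 - 1 * z ^ 11 + 1 * z ^ 12) *
      (1 + z ^ 4 - (z ^ 4) ^ 3) =
      -2 - 2 * z - 1 * z ^ 2 + 2 * z ^ 3 + 3 * z ^ 4 + 2 * z ^ 5 + 2 * z ^ 6 + 2 * z ^ 7 + 1 * z ^ 8 - 2 * z ^ 10 - 3 * z ^ 11 - 1 * z ^ 12 := by
  linear_combination (-3 - 4 * z - 3 * z ^ 2 + 1 * z ^ 4 + 1 * z ^ 5 + 1 * z ^ 6 + 1 * z ^ 7 + 1 * z ^ 8 + 2 * z ^ 9 + 1 * z ^ 10 - 1 * z ^ 11) * h1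

theorem Cert13_27.step5 {R : Type*} [CommRing R] (z : R) (h1 : z ^ 13 = 1) :
    (-2 - 2 * z - 1 * z ^ 2 + 2 * z ^ 3 + 3 * z ^ 4 + 2 * z ^ 5 + 2 * z ^ 6 + 2 * z ^ 7 + 1 * z ^ 8 - 2 * z ^ 10 - 3 * z ^ 11 - 1 * z ^ 12) *
      (1 + z ^ 5 - (z ^ 5) ^ 3) =
      2 - 1 * z - 1 * z ^ 2 + 1 * z ^ 3 + 3 * z ^ 4 - 2 * z ^ 5 - 3 * z ^ 6 - 1 * z ^ 7 + 1 * z ^ 8 + 1 * z ^ 9 - 1 * z ^ 10 - 1 * z ^ 11 + 3 * z ^ 12 := by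
  linear_combination (4 + 1 * z - 1 * z ^ 3 - 2 * z ^ 5 - 3 * z ^ 6 - 2 * z ^ 7 - 2 * z ^ 8 - 2 * z ^ 9 - 1 * z ^ 10 + 2 * z ^ 12 + 3 * z ^ 13 + 1 * z ^ 14) * h1

theorem Cert13_27.step6 {R : Type*} [CommRing R] (z : R) (h1 : z ^ 13 = 1) :
    (2 - 1 * z - 1 * z ^ 2 + 1 * z ^ 3 + 3 * z ^ 4 - 2 * z ^ 5 - 3 * z ^ 6 - 1 * z ^ 7 + 1 * z ^ 8 + 1 * z ^ 9 - 1 * z ^ 10 - 1 * z ^ 11 + 3 * z ^ 12) *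
      (1 + z ^ 6 - (z ^ 6) ^ 3) =
      -1 * z + 1 * z ^ 2 + 1 * z ^ 3 - 1 * z ^ 4 - 1 * z ^ 5 - 1 * z ^ 7 - 1 * z ^ 8 - 1 * z ^ 9 + 4 * z ^ 10 + 1 * z ^ 12 := by
  linear_combination (-2 + 2 * z ^ 2 - 4 * z ^ 4 + 1 * z ^ 5 + 1 * z ^ 6 + 1 * z ^ 7 - 1 * z ^ 8 - 3 * z ^ 9 + 2 * z ^ 10 + 3 * z ^ 11 + 1 * z ^ 12 - 1 * z ^ 13 - 1 * z ^ 14 + 1 * z ^ 15 + 1 * z ^ 16 - 3 * z ^ 17) * h1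

theorem Cert13_27.step7 {R : Type*} [CommRing R] (z : R) (h1 : z ^ 13 = 1) :
    (-1 * z + 1 * z ^ 2 + 1 * z ^ 3 - 1 * z ^ 4 - 1 * z ^ 5 - 1 * z ^ 7 - 1 * z ^ 8 - 1 * z ^ 9 + 4 * z ^ 10 + 1 * z ^ 12) *
      (1 + z ^ 7 - (z ^ 7) ^ 3) =
      1 - 2 * z + 1 * z ^ 2 + 1 * z ^ 3 + 4 * z ^ 4 - 5 * z ^ 5 + 1 * z ^ 6 - 2 * z ^ 7 - 2 * z ^ 8 + 1 * z ^ 9 + 4 * z ^ 10 - 2 * z ^ 11 + 1 * z ^ 12 := by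
  linear_combination (1 - 1 * z + 5 * z ^ 4 - 4 * z ^ 5 + 1 * z ^ 6 - 1 * z ^ 7 + 1 * z ^ 9 - 1 * z ^ 10 - 1 * z ^ 11 + 1 * z ^ 12 + 1 * z ^ 13 + 1 * z ^ 15 + 1 * z ^ 16 + 1 * z ^ 17 - 4 * z ^ 18 - 1 * z ^ 20) * h1

theorem Cert13_27.step8 {R : Type*} [CommRing R] (z : R) (h1 : z ^ 13 = 1) :
    (1 - 2 * z + 1 * z ^ 2 + 1 * z ^ 3 + 4 * z ^ 4 - 5 * z ^ 5 + 1 * z ^ 6 - 2 * z ^ 7 - 2 * z ^ 8 + 1 * z ^ 9 + 4 * z ^ 10 - 2 * z ^ 11 + 1 * z ^ 12) *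
      (1 + z ^ 8 - (z ^ 8) ^ 3) =
      -5 - 2 * z - 5 * z ^ 2 + 4 * z ^ 3 + 4 * z ^ 4 + 1 * z ^ 5 + 1 * z ^ 6 - 2 * z ^ 7 - 5 * z ^ 8 + 1 * z ^ 9 + 4 * z ^ 10 - 2 * z ^ 11 + 7 * z ^ 12 := by
  linear_combination (-6 - 6 * z ^ 2 + 3 * z ^ 3 + 6 * z ^ 5 - 4 * z ^ 8 + 2 * z ^ 9 - 1 * z ^ 10 - 1 * z ^ 11 + 2 * z ^ 12 - 1 * z ^ 13 - 1 * z ^ 14 - 4 * z ^ 15 + 5 * z ^ 16 - 1 * z ^ 17 + 2 * z ^ 18 + 2 * z ^ 19 - 1 * z ^ 20 - 4 * z ^ 21 + 2 * z ^ 22 - 1 * z ^ 23) * h1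

theorem Cert13_27.step9 {R : Type*} [CommRing R] (z : R) (h1 : z ^ 13 = 1) :
    (-5 - 2 * z - 5 * z ^ 2 + 4 * z ^ 3 + 4 * z ^ 4 + 1 * z ^ 5 + 1 * z ^ 6 - 2 * z ^ 7 - 5 * z ^ 8 + 1 * z ^ 9 + 4 * z ^ 10 - 2 * z ^ 11 + 7 * z ^ 12) *
      (1 + z ^ 9 - (z ^ 9) ^ 3) =
      -8 + 4 * z - 2 * z ^ 2 + 7 * z ^ 3 - 5 * z ^ 4 - 2 * z ^ 5 + 4 * z ^ 6 - 5 * z ^ 7 + 4 * z ^ 8 + 1 * z ^ 9 + 1 * z ^ 10 - 11 * z ^ 11 + 13 * z ^ 12 := by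
  linear_combination (-3 + 6 * z + 3 * z ^ 2 + 3 * z ^ 3 - 9 * z ^ 4 - 3 * z ^ 5 + 3 * z ^ 6 - 3 * z ^ 7 + 9 * z ^ 8 + 5 * z ^ 9 - 1 * z ^ 10 - 4 * z ^ 11 + 2 * z ^ 12 - 7 * z ^ 13 + 5 * z ^ 14 + 2 * z ^ 15 + 5 * z ^ 16 - 4 * z ^ 17 - 4 * z ^ 18 - 1 * z ^ 19 - 1 * z ^ 20 + 2 * z ^ 21 + 5 * z ^ 22 - 1 * z ^ 23 - 4 * z ^ 24 + 2 * z ^ 25 - 7 * z ^ 26) * h1

theorem Cert13_27.step10 {R : Type*} [CommRing R] (z : R) (h1 : z ^ 13 = 1) :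
    (-8 + 4 * z - 2 * z ^ 2 + 7 * z ^ 3 - 5 * z ^ 4 - 2 * z ^ 5 + 4 * z ^ 6 - 5 * z ^ 7 + 4 * z ^ 8 + 1 * z ^ 9 + 1 * z ^ 10 - 11 * z ^ 11 + 13 * z ^ 12) *
      (1 + z ^ 10 - (z ^ 10) ^ 3) =
      -2 - 2 * z + 7 * z ^ 2 - 2 * z ^ 3 - 2 * z ^ 4 - 2 * z ^ 5 + 7 * z ^ 6 - 11 * z ^ 7 - 2 * z ^ 8 + 16 * z ^ 9 - 11 * z ^ 10 - 2 * z ^ 11 + 7 * z ^ 12 := by
  linear_combination (6 - 6 * z + 9 * z ^ 2 - 9 * z ^ 3 + 3 * z ^ 4 + 3 * z ^ 6 - 6 * z ^ 7 - 6 * z ^ 8 + 15 * z ^ 9 - 4 * z ^ 10 + 5 * z ^ 11 - 4 * z ^ 12 - 1 * z ^ 13 - 1 * z ^ 14 + 11 * z ^ 15 - 13 * z ^ 16 + 8 * z ^ 17 - 4 * z ^ 18 + 2 * z ^ 19 - 7 * z ^ 20 + 5 * z ^ 21 + 2 * z ^ 22 - 4 * z ^ 23 + 5 * z ^ 24 - 4 * z ^ 25 - 1 * z ^ 26 - 1 * z ^ 27 + 11 * z ^ 28 - 13 * z ^ 29)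 * h1

theorem Cert13_27.step11 {R : Type*} [CommRing R] (z : R) (h1 : z ^ 13 = 1) :
    (-2 - 2 * z + 7 * z ^ 2 - 2 * z ^ 3 - 2 * z ^ 4 - 2 * z ^ 5 + 7 * z ^ 6 - 11 * z ^ 7 - 2 * z ^ 8 + 16 * z ^ 9 - 11 * z ^ 10 - 2 * z ^ 11 + 7 * z ^ 12) *
      (1 + z ^ 11 - (z ^ 11) ^ 3) =
      -2 + 7 * z + 7 * z ^ 2 - 20 * z ^ 3 + 16 * z ^ 4 - 11 * z ^ 5 - 2 * z ^ 6 + 7 * z ^ 7 - 11 * z ^ 8 + 7 * z ^ 9 - 2 * z ^ 10 - 2 * z ^ 11 + 7 * z ^ 12 := by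
  linear_combination (9 * z - 18 * z ^ 3 + 18 * z ^ 4 - 9 * z ^ 5 - 9 * z ^ 6 + 18 * z ^ 7 - 9 * z ^ 8 - 9 * z ^ 9 + 9 * z ^ 10 + 2 * z ^ 11 + 2 * z ^ 12 - 7 * z ^ 13 + 11 * z ^ 14 + 2 * z ^ 15 - 16 * z ^ 16 + 11 * z ^ 17 + 2 * z ^ 18 - 7 * z ^ 19 + 2 * z ^ 20 + 2 * z ^ 21 - 7 * z ^ 22 + 2 * z ^ 23 + 2 * z ^ 24 + 2 * z ^ 25 - 7 * z ^ 26 + 11 * z ^ 27 + 2 * z ^ 28 - 16 * z ^ 29 + 11 * z ^ 30 + 2 * z ^ 31 - 7 * z ^ 32) * h1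

theorem Cert13_27.step12 {R : Type*} [CommRing R] (z : R) (h1 : z ^ 13 = 1) :
    (-2 + 7 * z + 7 * z ^ 2 - 20 * z ^ 3 + 16 * z ^ 4 - 11 * z ^ 5 - 2 * z ^ 6 + 7 * z ^ 7 - 11 * z ^ 8 + 7 * z ^ 9 - 2 * z ^ 10 - 2 * z ^ 11 + 7 * z ^ 12) *
      (1 + z ^ 12 - (z ^ 12) ^ 3) =
      25 - 2 * z - 2 * z ^ 2 - 2 * z ^ 3 - 2 * z ^ 4 - 2 * z ^ 5 - 2 * z ^ 6 - 2 * z ^ 7 - 2 * z ^ 8 - 2 * z ^ 9 - 2 * z ^ 10 - 2 * z ^ 11 - 2 * z ^ 12 := by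
  linear_combination (27 - 9 * z - 9 * z ^ 2 + 18 * z ^ 3 - 18 * z ^ 4 + 9 * z ^ 5 - 9 * z ^ 7 + 9 * z ^ 8 - 9 * z ^ 9 - 7 * z ^ 12 + 20 * z ^ 13 - 16 * z ^ 14 + 11 * z ^ 15 + 2 * z ^ 16 - 7 * z ^ 17 + 11 * z ^ 18 - 7 * z ^ 19 + 2 * z ^ 20 + 2 * z ^ 21 - 7 * z ^ 22 + 2 * z ^ 23 - 7 * z ^ 24 - 7 * z ^ 25 + 20 * z ^ 26 - 16 * z ^ 27 + 11 * z ^ 28 + 2 * z ^ 29 - 7 * z ^ 30 + 11 * z ^ 31 - 7 * z ^ 32 + 2 * z ^ 33 + 2 * z ^ 34 - 7 * z ^ 35) * h1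

theorem Cert13_27.final {R : Type*} [CommRing R] (z : R)
    (h2' : 1 + z + z ^ 2 + z ^ 3 + z ^ 4 + z ^ 5 + z ^ 6 + z ^ 7 + z ^ 8 + z ^ 9 + z ^ 10 + z ^ 11 + z ^ 12 = 0) :
    25 - 2 * z - 2 * z ^ 2 - 2 * z ^ 3 - 2 * z ^ 4 - 2 * z ^ 5 - 2 * z ^ 6 - 2 * z ^ 7 - 2 * z ^ 8 - 2 * z ^ 9 - 2 * z ^ 10 - 2 * z ^ 11 - 2 * z ^ 12 = 27 := by
  linear_combination (-2 : R) * h2'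

theorem cert13_27 {R : Type*} [CommRing R] (z : R) (h1 : z ^ 13 = 1)
    (h2 : ∑ i ∈ Finset.range 13, z ^ i = 0) :
    ∏ k ∈ Finset.Icc 1 12, (1 + z ^ k - (z ^ k) ^ 3) = 27 := by
  have h2' : 1 + z + z ^ 2 + z ^ 3 + z ^ 4 + z ^ 5 + z ^ 6 + z ^ 7 + z ^ 8 + z ^ 9 + z ^ 10 + z ^ 11 + z ^ 12 = 0 := by
    simpa [Finset.sum_range_succ] using h2
  rw [Cert13_27.prod_expand, Cert13_27.step1 z h1, Cert13_27.step2 z h1, Cert13_27.step3 z h1, Cert13_27.step4 z h1, Cert13_27.step5 z h1, Cert13_27.step6 z h1, Cert13_27.step7 z h1, Cert13_27.step8 z h1, Cert13_27.step9 z h1, Cert13_27.step10 z h1, Cert13_27.step11 z h1, Cert13_27.step12 z h1]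
  exact Cert13_27.final z h2'

end Fermat.Agent.Kummer.PID

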