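import Fermat.Agent.Kummer.Defs

/-!
# Kummer / PID: norm certificate for `p = 13`: an element of norm `53`
(a polynomial identity modulo `z^13 = 1`, `1 + z + ⋯ + z^12 = 0`, in any commutative ring)
-/

set_option autoImplicit false

namespace Fermat.Agent.Kummer.PID

/-- One step of the certificate: multiply the partial product by the next factor. -/
theorem Cert13_53.step {R : Type*} [CommRing R] (g : ℕ → R) (n : ℕ) (Q Q' : R)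
    (hQ : ∏ k ∈ Finset.Icc 1 n, g k = Q) (h : Q * g (n + 1) = Q') :
    ∏ k ∈ Finset.Icc 1 (n + 1), g k = Q' := by
  rw [Finset.prod_Icc_succ_top (Nat.le_add_left 1 n), hQ, h]

theorem cert13_53 {R : Type*} [CommRing R] (z : R) (h1 : z ^ 13 = 1)
    (h2 : ∑ i ∈ Finset.range 13, z ^ i = 0) :
    ∏ k ∈ Finset.Icc 1 12, (1 + z ^ k + (z ^ k) ^ 3) = 53 := by
  have h2' : 1 + z + z ^ 2 + z ^ 3 + z ^ 4 + z ^ 5 + z ^ 6 + z ^ 7 + z ^ 8 + z ^ 9 + z ^ 10 + z ^ 11 + z ^ 12 = 0 := by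
    simpa [Finset.sum_range_succ] using h2
  have p1 : ∏ k ∈ Finset.Icc 1 1, (1 + z ^ k + (z ^ k) ^ 3) =
      1 + 1 * z ^ 1 + 1 * z ^ 3 := by
    rw [Finset.Icc_self, Finset.prod_singleton]
    linear_combination (0) * h1
  have p2 : ∏ k ∈ Finset.Icc 1 2, (1 + z ^ k + (z ^ k) ^ 3) =
      1 + 1 * z ^ 1 + 1 * z ^ 2 + 2 * z ^ 3 + 1 * z ^ 5 + 1 * z ^ 6 + 1 * z ^ 7 + 1 * z ^ 9 :=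
    Cert13_53.step (fun k : ℕ => 1 + z ^ k + (z ^ k) ^ 3) 1 _ _ p1 (by
      show (1 + 1 * z ^ 1 + 1 * z ^ 3) * (1 + z ^ 2 + (z ^ 2) ^ 3) =
        1 + 1 * z ^ 1 + 1 * z ^ 2 + 2 * z ^ 3 + 1 * z ^ 5 + 1 * z ^ 6 + 1 * z ^ 7 + 1 * z ^ 9
      linear_combination (0) * h1)
  have p3 : ∏ k ∈ Finset.Icc 1 3, (1 + z ^ k + (z ^ k) ^ 3) =
      1 + 2 * z ^ 1 + 2 * z ^ 2 + 4 * z ^ 3 + 1 * z ^ 4 + 3 * z ^ 5 + 3 * z ^ 6 + 1 * z ^ 7 + 1 * z ^ 8 + 3 * z ^ 9 + 2 * z ^ 10 + 1 * z ^ 11 + 3 * z ^ 12 :=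
    Cert13_53.step (fun k : ℕ => 1 + z ^ k + (z ^ k) ^ 3) 2 _ _ p2 (by
      show (1 + 1 * z ^ 1 + 1 * z ^ 2 + 2 * z ^ 3 + 1 * z ^ 5 + 1 * z ^ 6 + 1 * z ^ 7 + 1 * z ^ 9) * (1 + z ^ 3 + (z ^ 3) ^ 3) =
        1 + 2 * z ^ 1 + 2 * z ^ 2 + 4 * z ^ 3 + 1 * z ^ 4 + 3 * z ^ 5 + 3 * z ^ 6 + 1 * z ^ 7 + 1 * z ^ 8 + 3 * z ^ 9 + 2 * z ^ 10 + 1 * z ^ 11 + 3 * z ^ 12
      linear_combination (1 * z ^ 1 + 1 * z ^ 2 + 1 * z ^ 3 + 1 * z ^ 5) * h1)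
  have p4 : ∏ k ∈ Finset.Icc 1 4, (1 + z ^ k + (z ^ k) ^ 3) =
      6 + 6 * z ^ 1 + 7 * z ^ 2 + 8 * z ^ 3 + 5 * z ^ 4 + 8 * z ^ 5 + 6 * z ^ 6 + 6 * z ^ 7 + 5 * z ^ 8 + 8 * z ^ 9 + 6 * z ^ 10 + 5 * z ^ 11 + 5 * z ^ 12 :=
    Cert13_53.step (fun k : ℕ => 1 + z ^ k + (z ^ k) ^ 3) 3 _ _ p3 (by
      show (1 + 2 * z ^ 1 + 2 * z ^ 2 + 4 * z ^ 3 + 1 * z ^ 4 + 3 * z ^ 5 + 3 * z ^ 6 + 1 * z ^ 7 + 1 * z ^ 8 + 3 * z ^ 9 + 2 * z ^ 10 + 1 * z ^ 11 + 3 * z ^ 12) * (1 + z ^ 4 + (z ^ 4) ^ 3) =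
        6 + 6 * z ^ 1 + 7 * z ^ 2 + 8 * z ^ 3 + 5 * z ^ 4 + 8 * z ^ 5 + 6 * z ^ 6 + 6 * z ^ 7 + 5 * z ^ 8 + 8 * z ^ 9 + 6 * z ^ 10 + 5 * z ^ 11 + 5 * z ^ 12
      linear_combination (5 + 4 * z ^ 1 + 5 * z ^ 2 + 4 * z ^ 3 + 3 * z ^ 4 + 3 * z ^ 5 + 1 * z ^ 6 + 1 * z ^ 7 + 3 * z ^ 8 + 2 * z ^ 9 + 1 * z ^ 10 + 3 * z ^ 11) * h1)
  have p5 : ∏ k ∈ Finset.Icc 1 5, (1 + z ^ k + (z ^ k) ^ 3) =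
      16 + 19 * z ^ 1 + 19 * z ^ 2 + 19 * z ^ 3 + 17 * z ^ 4 + 22 * z ^ 5 + 17 * z ^ 6 + 21 * z ^ 7 + 19 * z ^ 8 + 19 * z ^ 9 + 19 * z ^ 10 + 19 * z ^ 11 + 17 * z ^ 12 :=
    Cert13_53.step (fun k : ℕ => 1 + z ^ k + (z ^ k) ^ 3) 4 _ _ p4 (by
      show (6 + 6 * z ^ 1 + 7 * z ^ 2 + 8 * z ^ 3 + 5 * z ^ 4 + 8 * z ^ 5 + 6 * z ^ 6 + 6 * z ^ 7 + 5 * z ^ 8 + 8 * z ^ 9 + 6 * z ^ 10 + 5 * z ^ 11 + 5 * z ^ 12) * (1 + z ^ 5 + (z ^ 5) ^ 3) =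
        16 + 19 * z ^ 1 + 19 * z ^ 2 + 19 * z ^ 3 + 17 * z ^ 4 + 22 * z ^ 5 + 17 * z ^ 6 + 21 * z ^ 7 + 19 * z ^ 8 + 19 * z ^ 9 + 19 * z ^ 10 + 19 * z ^ 11 + 17 * z ^ 12
      linear_combination (10 + 13 * z ^ 1 + 12 * z ^ 2 + 11 * z ^ 3 + 12 * z ^ 4 + 8 * z ^ 5 + 5 * z ^ 6 + 8 * z ^ 7 + 6 * z ^ 8 + 6 * z ^ 9 + 5 * z ^ 10 + 8 * z ^ 11 + 6 * z ^ 12 + 5 * z ^ 13 + 5 * z ^ 14) * h1)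
  have p6 : ∏ k ∈ Finset.Icc 1 6, (1 + z ^ k + (z ^ k) ^ 3) =
      56 + 57 * z ^ 1 + 57 * z ^ 2 + 57 * z ^ 3 + 53 * z ^ 4 + 55 * z ^ 5 + 52 * z ^ 6 + 59 * z ^ 7 + 57 * z ^ 8 + 55 * z ^ 9 + 58 * z ^ 10 + 58 * z ^ 11 + 55 * z ^ 12 :=
    Cert13_53.step (fun k : ℕ => 1 + z ^ k + (z ^ k) ^ 3) 5 _ _ p5 (by
      show (16 + 19 * z ^ 1 + 19 * z ^ 2 + 19 * z ^ 3 + 17 * z ^ 4 + 22 * z ^ 5 + 17 * z ^ 6 + 21 * z ^ 7 + 19 * z ^ 8 + 19 * z ^ 9 + 19 * z ^ 10 + 19 * z ^ 11 + 17 * z ^ 12) * (1 + z ^ 6 + (z ^ 6) ^ 3) =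
        56 + 57 * z ^ 1 + 57 * z ^ 2 + 57 * z ^ 3 + 53 * z ^ 4 + 55 * z ^ 5 + 52 * z ^ 6 + 59 * z ^ 7 + 57 * z ^ 8 + 55 * z ^ 9 + 58 * z ^ 10 + 58 * z ^ 11 + 55 * z ^ 12
      linear_combination (40 + 38 * z ^ 1 + 38 * z ^ 2 + 38 * z ^ 3 + 36 * z ^ 4 + 33 * z ^ 5 + 19 * z ^ 6 + 19 * z ^ 7 + 19 * z ^ 8 + 17 * z ^ 9 + 22 * z ^ 10 + 17 * z ^ 11 + 21 * z ^ 12 + 19 * z ^ 13 + 19 * z ^ 14 + 19 * z ^ 15 + 19 * z ^ 16 + 17 * z ^ 17) * h1)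
  have p7 : ∏ k ∈ Finset.Icc 1 7, (1 + z ^ k + (z ^ k) ^ 3) =
      163 + 168 * z ^ 1 + 173 * z ^ 2 + 169 * z ^ 3 + 166 * z ^ 4 + 171 * z ^ 5 + 165 * z ^ 6 + 170 * z ^ 7 + 170 * z ^ 8 + 169 * z ^ 9 + 172 * z ^ 10 + 168 * z ^ 11 + 163 * z ^ 12 :=
    Cert13_53.step (fun k : ℕ => 1 + z ^ k + (z ^ k) ^ 3) 6 _ _ p6 (by
      show (56 + 57 * z ^ 1 + 57 * z ^ 2 + 57 * z ^ 3 + 53 * z ^ 4 + 55 * z ^ 5 + 52 * z ^ 6 + 59 * z ^ 7 + 57 * z ^ 8 + 55 * z ^ 9 + 58 * z ^ 10 + 58 * z ^ 11 + 55 * z ^ 12) * (1 + z ^ 7 + (z ^ 7) ^ 3) =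
        163 + 168 * z ^ 1 + 173 * z ^ 2 + 169 * z ^ 3 + 166 * z ^ 4 + 171 * z ^ 5 + 165 * z ^ 6 + 170 * z ^ 7 + 170 * z ^ 8 + 169 * z ^ 9 + 172 * z ^ 10 + 168 * z ^ 11 + 163 * z ^ 12
      linear_combination (107 + 111 * z ^ 1 + 116 * z ^ 2 + 112 * z ^ 3 + 113 * z ^ 4 + 116 * z ^ 5 + 113 * z ^ 6 + 55 * z ^ 7 + 56 * z ^ 8 + 57 * z ^ 9 + 57 * z ^ 10 + 57 * z ^ 11 + 53 * z ^ 12 + 55 * z ^ 13 + 52 * z ^ 14 + 59 * z ^ 15 + 57 * z ^ 16 + 55 * z ^ 17 + 58 * z ^ 18 + 58 * z ^ 19 + 55 * z ^ 20) * h1)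
  have p8 : ∏ k ∈ Finset.Icc 1 8, (1 + z ^ k + (z ^ k) ^ 3) =
      507 + 502 * z ^ 1 + 509 * z ^ 2 + 510 * z ^ 3 + 500 * z ^ 4 + 513 * z ^ 5 + 503 * z ^ 6 + 502 * z ^ 7 + 505 * z ^ 8 + 505 * z ^ 9 + 508 * z ^ 10 + 500 * z ^ 11 + 497 * z ^ 12 :=
    Cert13_53.step (fun k : ℕ => 1 + z ^ k + (z ^ k) ^ 3) 7 _ _ p7 (by
      show (163 + 168 * z ^ 1 + 173 * z ^ 2 + 169 * z ^ 3 + 166 * z ^ 4 + 171 * z ^ 5 + 165 * z ^ 6 + 170 * z ^ 7 + 170 * z ^ 8 + 169 * z ^ 9 + 172 * z ^ 10 + 168 * z ^ 11 + 163 * z ^ 12) * (1 + z ^ 8 + (z ^ 8) ^ 3) =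
        507 + 502 * z ^ 1 + 509 * z ^ 2 + 510 * z ^ 3 + 500 * z ^ 4 + 513 * z ^ 5 + 503 * z ^ 6 + 502 * z ^ 7 + 505 * z ^ 8 + 505 * z ^ 9 + 508 * z ^ 10 + 500 * z ^ 11 + 497 * z ^ 12
      linear_combination (344 + 334 * z ^ 1 + 336 * z ^ 2 + 341 * z ^ 3 + 334 * z ^ 4 + 342 * z ^ 5 + 338 * z ^ 6 + 332 * z ^ 7 + 172 * z ^ 8 + 168 * z ^ 9 + 163 * z ^ 10 + 163 * z ^ 11 + 168 * z ^ 12 + 173 * z ^ 13 + 169 * z ^ 14 + 166 * z ^ 15 + 171 * z ^ 16 + 165 * z ^ 17 + 170 * z ^ 18 + 170 * z ^ 19 + 169 * z ^ 20 + 172 * z ^ 21 + 168 * z ^ 22 + 163 * z ^ 23) * h1)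
  have p9 : ∏ k ∈ Finset.Icc 1 9, (1 + z ^ k + (z ^ k) ^ 3) =
      1504 + 1522 * z ^ 1 + 1514 * z ^ 2 + 1521 * z ^ 3 + 1515 * z ^ 4 + 1518 * z ^ 5 + 1524 * z ^ 6 + 1505 * z ^ 7 + 1504 * z ^ 8 + 1517 * z ^ 9 + 1515 * z ^ 10 + 1517 * z ^ 11 + 1507 * z ^ 12 :=
    Cert13_53.step (fun k : ℕ => 1 + z ^ k + (z ^ k) ^ 3) 8 _ _ p8 (by
      show (507 + 502 * z ^ 1 + 509 * z ^ 2 + 510 * z ^ 3 + 500 * z ^ 4 + 513 * z ^ 5 + 503 * z ^ 6 + 502 * z ^ 7 + 505 * z ^ 8 + 505 * z ^ 9 + 508 * z ^ 10 + 500 * z ^ 11 + 497 * z ^ 12) * (1 + z ^ 9 + (z ^ 9) ^ 3) =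
        1504 + 1522 * z ^ 1 + 1514 * z ^ 2 + 1521 * z ^ 3 + 1515 * z ^ 4 + 1518 * z ^ 5 + 1524 * z ^ 6 + 1505 * z ^ 7 + 1504 * z ^ 8 + 1517 * z ^ 9 + 1515 * z ^ 10 + 1517 * z ^ 11 + 1507 * z ^ 12
      linear_combination (997 + 1020 * z ^ 1 + 1005 * z ^ 2 + 1011 * z ^ 3 + 1015 * z ^ 4 + 1005 * z ^ 5 + 1021 * z ^ 6 + 1003 * z ^ 7 + 999 * z ^ 8 + 505 * z ^ 9 + 505 * z ^ 10 + 508 * z ^ 11 + 500 * z ^ 12 + 497 * z ^ 13 + 507 * z ^ 14 + 502 * z ^ 15 + 509 * z ^ 16 + 510 * z ^ 17 + 500 * z ^ 18 + 513 * z ^ 19 + 503 * z ^ 20 + 502 * z ^ 21 + 505 * z ^ 22 + 505 * z ^ 23 + 508 * z ^ 24 + 500 * z ^ 25 + 497 * z ^ 26) * h1)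
  have p10 : ∏ k ∈ Finset.Icc 1 10, (1 + z ^ k + (z ^ k) ^ 3) =
      4542 + 4552 * z ^ 1 + 4549 * z ^ 2 + 4552 * z ^ 3 + 4524 * z ^ 4 + 4544 * z ^ 5 + 4555 * z ^ 6 + 4541 * z ^ 7 + 4536 * z ^ 8 + 4542 * z ^ 9 + 4543 * z ^ 10 + 4544 * z ^ 11 + 4525 * z ^ 12 :=
    Cert13_53.step (fun k : ℕ => 1 + z ^ k + (z ^ k) ^ 3) 9 _ _ p9 (by
      show (1504 + 1522 * z ^ 1 + 1514 * z ^ 2 + 1521 * z ^ 3 + 1515 * z ^ 4 + 1518 * z ^ 5 + 1524 * z ^ 6 + 1505 * z ^ 7 + 1504 * z ^ 8 + 1517 * z ^ 9 + 1515 * z ^ 10 + 1517 * z ^ 11 + 1507 * z ^ 12) * (1 + z ^ 10 + (z ^ 10) ^ 3) =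
        4542 + 4552 * z ^ 1 + 4549 * z ^ 2 + 4552 * z ^ 3 + 4524 * z ^ 4 + 4544 * z ^ 5 + 4555 * z ^ 6 + 4541 * z ^ 7 + 4536 * z ^ 8 + 4542 * z ^ 9 + 4543 * z ^ 10 + 4544 * z ^ 11 + 4525 * z ^ 12
      linear_combination (3038 + 3030 * z ^ 1 + 3035 * z ^ 2 + 3031 * z ^ 3 + 3009 * z ^ 4 + 3026 * z ^ 5 + 3031 * z ^ 6 + 3036 * z ^ 7 + 3032 * z ^ 8 + 3025 * z ^ 9 + 1524 * z ^ 10 + 1505 * z ^ 11 + 1504 * z ^ 12 + 1517 * z ^ 13 + 1515 * z ^ 14 + 1517 * z ^ 15 + 1507 * z ^ 16 + 1504 * z ^ 17 + 1522 * z ^ 18 + 1514 * z ^ 19 + 1521 * z ^ 20 + 1515 * z ^ 21 + 1518 * z ^ 22 + 1524 * z ^ 23 + 1505 * z ^ 24 + 1504 * z ^ 25 + 1517 * z ^ 26 + 1515 * z ^ 27 + 1517 * z ^ 28 + 1507 * z ^ 29) * h1)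
  have p11 : ∏ k ∈ Finset.Icc 1 11, (1 + z ^ k + (z ^ k) ^ 3) =
      13646 + 13645 * z ^ 1 + 13609 * z ^ 2 + 13638 * z ^ 3 + 13622 * z ^ 4 + 13629 * z ^ 5 + 13616 * z ^ 6 + 13625 * z ^ 7 + 13631 * z ^ 8 + 13635 * z ^ 9 + 13620 * z ^ 10 + 13610 * z ^ 11 + 13621 * z ^ 12 :=
    Cert13_53.step (fun k : ℕ => 1 + z ^ k + (z ^ k) ^ 3) 10 _ _ p10 (by
      show (4542 + 4552 * z ^ 1 + 4549 * z ^ 2 + 4552 * z ^ 3 + 4524 * z ^ 4 + 4544 * z ^ 5 + 4555 * z ^ 6 + 4541 * z ^ 7 + 4536 * z ^ 8 + 4542 * z ^ 9 + 4543 * z ^ 10 + 4544 * z ^ 11 + 4525 * z ^ 12) * (1 + z ^ 11 + (z ^ 11) ^ 3) =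
        13646 + 13645 * z ^ 1 + 13609 * z ^ 2 + 13638 * z ^ 3 + 13622 * z ^ 4 + 13629 * z ^ 5 + 13616 * z ^ 6 + 13625 * z ^ 7 + 13631 * z ^ 8 + 13635 * z ^ 9 + 13620 * z ^ 10 + 13610 * z ^ 11 + 13621 * z ^ 12
      linear_combination (9104 + 9093 * z ^ 1 + 9060 * z ^ 2 + 9086 * z ^ 3 + 9098 * z ^ 4 + 9085 * z ^ 5 + 9061 * z ^ 6 + 9084 * z ^ 7 + 9095 * z ^ 8 + 9093 * z ^ 9 + 9077 * z ^ 10 + 4524 * z ^ 11 + 4544 * z ^ 12 + 4555 * z ^ 13 + 4541 * z ^ 14 + 4536 * z ^ 15 + 4542 * z ^ 16 + 4543 * z ^ 17 + 4544 * z ^ 18 + 4525 * z ^ 19 + 4542 * z ^ 20 + 4552 * z ^ 21 + 4549 * z ^ 22 + 4552 * z ^ 23 + 4524 * z ^ 24 + 4544 * z ^ 25 + 4555 * z ^ 26 + 4541 * z ^ 27 + 4536 * z ^ 28 + 4542 * z ^ 29 + 4543 * z ^ 30 + 4544 * z ^ 31 + 4525 * z ^ 32) * h1)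
  have p12 : ∏ k ∈ Finset.Icc 1 12, (1 + z ^ k + (z ^ k) ^ 3) =
      40929 + 40876 * z ^ 1 + 40876 * z ^ 2 + 40876 * z ^ 3 + 40876 * z ^ 4 + 40876 * z ^ 5 + 40876 * z ^ 6 + 40876 * z ^ 7 + 40876 * z ^ 8 + 40876 * z ^ 9 + 40876 * z ^ 10 + 40876 * z ^ 11 + 40876 * z ^ 12 :=
    Cert13_53.step (fun k : ℕ => 1 + z ^ k + (z ^ k) ^ 3) 11 _ _ p11 (by
      show (13646 + 13645 * z ^ 1 + 13609 * z ^ 2 + 13638 * z ^ 3 + 13622 * z ^ 4 + 13629 * z ^ 5 + 13616 * z ^ 6 + 13625 * z ^ 7 + 13631 * z ^ 8 + 13635 * z ^ 9 + 13620 * z ^ 10 + 13610 * z ^ 11 + 13621 * z ^ 12) * (1 + z ^ 12 + (z ^ 12) ^ 3) =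
        40929 + 40876 * z ^ 1 + 40876 * z ^ 2 + 40876 * z ^ 3 + 40876 * z ^ 4 + 40876 * z ^ 5 + 40876 * z ^ 6 + 40876 * z ^ 7 + 40876 * z ^ 8 + 40876 * z ^ 9 + 40876 * z ^ 10 + 40876 * z ^ 11 + 40876 * z ^ 12
      linear_combination (27283 + 27231 * z ^ 1 + 27267 * z ^ 2 + 27238 * z ^ 3 + 27254 * z ^ 4 + 27247 * z ^ 5 + 27260 * z ^ 6 + 27251 * z ^ 7 + 27245 * z ^ 8 + 27241 * z ^ 9 + 27256 * z ^ 10 + 27266 * z ^ 11 + 13609 * z ^ 12 + 13638 * z ^ 13 + 13622 * z ^ 14 + 13629 * z ^ 15 + 13616 * z ^ 16 + 13625 * z ^ 17 + 13631 * z ^ 18 + 13635 * z ^ 19 + 13620 * z ^ 20 + 13610 * z ^ 21 + 13621 * z ^ 22 + 13646 * z ^ 23 + 13645 * z ^ 24 + 13609 * z ^ 25 + 13638 * z ^ 26 + 13622 * z ^ 27 + 13629 * z ^ 28 + 13616 * z ^ 29 + 13625 * z ^ 30 + 13631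 * z ^ 31 + 13635 * z ^ 32 + 13620 * z ^ 33 + 13610 * z ^ 34 + 13621 * z ^ 35) * h1)
  rw [p12]
  linear_combination (40876 : R) * h2'

end Fermat.Agent.Kummer.PID
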