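import Fermat.Agent.Kummer.Defs

/-!
# Kummer / PID: norm certificate for `p = 13`: an element of norm `79`
(a polynomial identity modulo `z^13 = 1`, `1 + z + ⋯ + z^12 = 0`, in any commutative ring)
-/

set_option autoImplicit false

namespace Fermat.Agent.Kummer.PID

/-- Expansion of a product over `Finset.Icc 1 12` into twelve explicit factors. -/
theorem Cert13_79.prod_Icc_expand {R : Type*} [CommRing R] (g : ℕ → R) :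
    ∏ k ∈ Finset.Icc 1 12, g k =
      g 1 * g 2 * g 3 * g 4 * g 5 * g 6 * g 7 * g 8 * g 9 * g 10 * g 11 * g 12 := by
  have h : Finset.Icc 1 12 = Finset.Ico 1 13 := rfl
  rw [h, Finset.prod_Ico_eq_prod_range]
  simp only [Finset.prod_range_succ, Finset.prod_range_zero, one_mul]

theorem cert13_79 {R : Type*} [CommRing R] (z : R) (h1 : z ^ 13 = 1)
    (h2 : ∑ i ∈ Finset.range 13, z ^ i = 0) :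
    ∏ k ∈ Finset.Icc 1 12, (1 + z ^ k - (z ^ k) ^ 4) = 79 := by
  have h2' : 1 + z + z ^ 2 + z ^ 3 + z ^ 4 + z ^ 5 + z ^ 6 + z ^ 7 + z ^ 8 + z ^ 9 + z ^ 10 + z ^ 11 + z ^ 12 = 0 := by
    simpa [Finset.sum_range_succ] using h2
  have s1 : (1 + z ^ 1 - (z ^ 1) ^ 4) =
      1 + 1 * z ^ 1 - 1 * z ^ 4 := by
    linear_combination (0) * h1
  have s2 : (1 + 1 * z ^ 1 - 1 * z ^ 4) *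
      (1 + z ^ 2 - (z ^ 2) ^ 4) =
      1 + 1 * z ^ 1 + 1 * z ^ 2 + 1 * z ^ 3 - 1 * z ^ 4 - 1 * z ^ 6 - 1 * z ^ 8 - 1 * z ^ 9 + 1 * z ^ 12 := by
    linear_combination (0) * h1
  have s3 : (1 + 1 * z ^ 1 + 1 * z ^ 2 + 1 * z ^ 3 - 1 * z ^ 4 - 1 * z ^ 6 - 1 * z ^ 8 - 1 * z ^ 9 + 1 * z ^ 12) *
      (1 + z ^ 3 - (z ^ 3) ^ 4) =
      1 * z ^ 2 + 3 * z ^ 3 + 2 * z ^ 5 - 2 * z ^ 9 - 2 * z ^ 11 - 1 * z ^ 12 := by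
    linear_combination (-1 - 1 * z ^ 1 + 1 * z ^ 3 + 1 * z ^ 5 + 1 * z ^ 7 + 1 * z ^ 8 - 1 * z ^ 11) * h1
  have s4 : (1 * z ^ 2 + 3 * z ^ 3 + 2 * z ^ 5 - 2 * z ^ 9 - 2 * z ^ 11 - 1 * z ^ 12) *
      (1 + z ^ 4 - (z ^ 4) ^ 4) =
      -2 + 2 * z ^ 1 + 2 * z ^ 3 + 1 * z ^ 5 - 2 * z ^ 6 + 3 * z ^ 7 - 2 * z ^ 8 - 2 * z ^ 11 + 1 * z ^ 12 := by
    linear_combination (-2 + 2 * z ^ 1 - 1 * z ^ 2 - 1 * z ^ 3 - 1 * z ^ 5 - 3 * z ^ 6 - 2 * z ^ 8 + 2 * z ^ 12 + 2 * z ^ 14 + 1 * z ^ 15) * h1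
  have s5 : (-2 + 2 * z ^ 1 + 2 * z ^ 3 + 1 * z ^ 5 - 2 * z ^ 6 + 3 * z ^ 7 - 2 * z ^ 8 - 2 * z ^ 11 + 1 * z ^ 12) *
      (1 + z ^ 5 - (z ^ 5) ^ 4) =
      -2 - 1 * z ^ 1 + 2 * z ^ 2 + 1 * z ^ 4 + 1 * z ^ 5 - 1 * z ^ 6 + 5 * z ^ 7 - 2 * z ^ 8 - 1 * z ^ 10 - 4 * z ^ 11 + 3 * z ^ 12 := by
    linear_combination (-3 * z ^ 1 + 2 * z ^ 2 - 2 * z ^ 3 + 1 * z ^ 4 + 2 * z ^ 5 - 1 * z ^ 6 + 2 * z ^ 7 - 2 * z ^ 8 - 2 * z ^ 10 - 1 * z ^ 12 + 2 * z ^ 13 - 3 * z ^ 14 + 2 * z ^ 15 + 2 * z ^ 18 - 1 * z ^ 19) * h1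
  have s6 : (-2 - 1 * z ^ 1 + 2 * z ^ 2 + 1 * z ^ 4 + 1 * z ^ 5 - 1 * z ^ 6 + 5 * z ^ 7 - 2 * z ^ 8 - 1 * z ^ 10 - 4 * z ^ 11 + 3 * z ^ 12) *
      (1 + z ^ 6 - (z ^ 6) ^ 4) =
      1 - 3 * z ^ 1 + 1 * z ^ 2 - 2 * z ^ 3 - 2 * z ^ 4 - 1 * z ^ 5 - 1 * z ^ 6 + 4 * z ^ 7 + 1 * z ^ 8 + 4 * z ^ 9 - 3 * z ^ 10 - 1 * z ^ 11 + 3 * z ^ 12 := by
    linear_combination (3 - 2 * z ^ 1 - 1 * z ^ 2 - 2 * z ^ 3 - 3 * z ^ 4 - 2 * z ^ 5 + 2 * z ^ 6 + 1 * z ^ 8 + 4 * z ^ 9 - 3 * z ^ 10 + 2 * z ^ 11 + 1 * z ^ 12 - 2 * z ^ 13 - 1 * z ^ 15 - 1 * z ^ 16 + 1 * z ^ 17 - 5 * z ^ 18 + 2 * z ^ 19 + 1 * z ^ 21 + 4 * z ^ 22 - 3 * z ^ 23) * h1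
  have s7 : (1 - 3 * z ^ 1 + 1 * z ^ 2 - 2 * z ^ 3 - 2 * z ^ 4 - 1 * z ^ 5 - 1 * z ^ 6 + 4 * z ^ 7 + 1 * z ^ 8 + 4 * z ^ 9 - 3 * z ^ 10 - 1 * z ^ 11 + 3 * z ^ 12) *
      (1 + z ^ 7 - (z ^ 7) ^ 4) =
      1 - 2 * z ^ 1 + 1 * z ^ 2 + 5 * z ^ 3 - 6 * z ^ 4 + 4 * z ^ 6 + 6 * z ^ 7 - 1 * z ^ 8 + 1 * z ^ 9 - 6 * z ^ 10 - 7 * z ^ 11 + 5 * z ^ 12 := by
    linear_combination (1 * z ^ 1 + 7 * z ^ 3 - 4 * z ^ 4 + 1 * z ^ 5 + 5 * z ^ 6 + 1 * z ^ 7 + 1 * z ^ 8 - 4 * z ^ 9 - 1 * z ^ 10 - 4 * z ^ 11 + 3 * z ^ 12 + 1 * z ^ 13 - 3 * z ^ 14 - 1 * z ^ 15 + 3 * z ^ 16 - 1 * z ^ 17 + 2 * z ^ 18 + 2 * z ^ 19 + 1 * z ^ 20 + 1 * z ^ 21 - 4 * z ^ 22 - 1 * z ^ 23 - 4 * z ^ 24 + 3 * z ^ 25 + 1 * z ^ 26 - 3 * z ^ 27) *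 h1
  have s8 : (1 - 2 * z ^ 1 + 1 * z ^ 2 + 5 * z ^ 3 - 6 * z ^ 4 + 4 * z ^ 6 + 6 * z ^ 7 - 1 * z ^ 8 + 1 * z ^ 9 - 6 * z ^ 10 - 7 * z ^ 11 + 5 * z ^ 12) *
      (1 + z ^ 8 - (z ^ 8) ^ 4) =
      -5 + 3 * z ^ 1 + 6 * z ^ 2 + 10 * z ^ 3 + 2 * z ^ 4 - 11 * z ^ 5 - 4 * z ^ 6 + 13 * z ^ 7 - 1 * z ^ 8 - 6 * z ^ 9 + 1 * z ^ 10 - 2 * z ^ 11 - 5 * z ^ 12 := by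
    linear_combination (-6 + 5 * z ^ 1 + 5 * z ^ 2 + 5 * z ^ 3 + 8 * z ^ 4 - 11 * z ^ 5 - 8 * z ^ 6 + 7 * z ^ 7 - 1 * z ^ 8 - 5 * z ^ 9 + 6 * z ^ 10 - 4 * z ^ 12 - 6 * z ^ 13 + 1 * z ^ 14 - 1 * z ^ 15 + 6 * z ^ 16 + 7 * z ^ 17 - 5 * z ^ 18 - 1 * z ^ 19 + 2 * z ^ 20 - 1 * z ^ 21 - 5 * z ^ 22 + 6 * z ^ 23 - 4 * z ^ 25 - 6 * z ^ 26 + 1 * z ^ 27 - 1 * z ^ 28 + 6 * z ^ 29 + 7 * z ^ 30 - 5 * z ^ 31) * h1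
  have s9 : (-5 + 3 * z ^ 1 + 6 * z ^ 2 + 10 * z ^ 3 + 2 * z ^ 4 - 11 * z ^ 5 - 4 * z ^ 6 + 13 * z ^ 7 - 1 * z ^ 8 - 6 * z ^ 9 + 1 * z ^ 10 - 2 * z ^ 11 - 5 * z ^ 12) *
      (1 + z ^ 9 - (z ^ 9) ^ 4) =
      -13 - 10 * z ^ 1 + 13 * z ^ 2 + 27 * z ^ 3 - 12 * z ^ 4 - 16 * z ^ 5 + 3 * z ^ 6 + 10 * z ^ 7 - 4 * z ^ 8 - 6 * z ^ 9 + 9 * z ^ 10 + 1 * z ^ 11 - 1 * z ^ 12 := by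
    linear_combination (-8 - 13 * z ^ 1 + 7 * z ^ 2 + 17 * z ^ 3 - 14 * z ^ 4 - 5 * z ^ 5 + 7 * z ^ 6 - 3 * z ^ 7 - 3 * z ^ 8 + 5 * z ^ 9 + 5 * z ^ 10 - 3 * z ^ 11 - 6 * z ^ 12 - 10 * z ^ 13 - 2 * z ^ 14 + 11 * z ^ 15 + 4 * z ^ 16 - 13 * z ^ 17 + 1 * z ^ 18 + 6 * z ^ 19 - 1 * z ^ 20 + 2 * z ^ 21 + 5 * z ^ 22 + 5 * z ^ 23 - 3 * z ^ 24 - 6 * z ^ 25 - 10 * z ^ 26 - 2 * z ^ 27 + 11 * z ^ 28 + 4 * z ^ 29 - 13 * z ^ 30 + 1 * z ^ 31 + 6 * z ^ 32 - 1 * z ^ 33 + 2 * z ^ 34 + 5 * z ^ 35) * h1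
  have s10 : (-13 - 10 * z ^ 1 + 13 * z ^ 2 + 27 * z ^ 3 - 12 * z ^ 4 - 16 * z ^ 5 + 3 * z ^ 6 + 10 * z ^ 7 - 4 * z ^ 8 - 6 * z ^ 9 + 9 * z ^ 10 + 1 * z ^ 11 - 1 * z ^ 12) *
      (1 + z ^ 10 - (z ^ 10) ^ 4) =
      15 - 9 * z ^ 1 + 7 * z ^ 2 + 17 * z ^ 3 - 29 * z ^ 4 - 8 * z ^ 5 + 13 * z ^ 6 + 16 * z ^ 7 - 13 * z ^ 8 - 3 * z ^ 9 + 2 * z ^ 10 - 18 * z ^ 11 + 11 * z ^ 12 := by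
    linear_combination (28 + 1 * z ^ 1 - 6 * z ^ 2 - 10 * z ^ 3 - 17 * z ^ 4 + 8 * z ^ 5 + 10 * z ^ 6 + 6 * z ^ 7 - 9 * z ^ 8 + 3 * z ^ 9 + 6 * z ^ 10 - 9 * z ^ 11 - 1 * z ^ 12 + 1 * z ^ 13 + 13 * z ^ 14 + 10 * z ^ 15 - 13 * z ^ 16 - 27 * z ^ 17 + 12 * z ^ 18 + 16 * z ^ 19 - 3 * z ^ 20 - 10 * z ^ 21 + 4 * z ^ 22 + 6 * z ^ 23 - 9 * z ^ 24 - 1 * z ^ 25 + 1 * z ^ 26 + 13 * z ^ 27 + 10 * z ^ 28 - 13 * z ^ 29 - 27 * z ^ 30 + 12 * z ^ 31 + 16 * z ^ 32 - 3 * z ^ 33 - 10 * z ^ 34 + 4 * z ^ 35 + 6 * z ^ 36 - 9 * z ^ 37 - 1 * z ^ 38 + 1 * z ^ 39) * h1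
  have s11 : (15 - 9 * z ^ 1 + 7 * z ^ 2 + 17 * z ^ 3 - 29 * z ^ 4 - 8 * z ^ 5 + 13 * z ^ 6 + 16 * z ^ 7 - 13 * z ^ 8 - 3 * z ^ 9 + 2 * z ^ 10 - 18 * z ^ 11 + 11 * z ^ 12) *
      (1 + z ^ 11 - (z ^ 11) ^ 4) =
      35 + 11 * z ^ 1 - 24 * z ^ 2 + 27 * z ^ 3 - 27 * z ^ 4 - 7 * z ^ 5 + 9 * z ^ 6 + 6 * z ^ 7 - 28 * z ^ 8 + 8 * z ^ 9 + 21 * z ^ 10 - 16 * z ^ 11 - 14 * z ^ 12 := by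
    linear_combination (20 + 20 * z ^ 1 - 31 * z ^ 2 + 10 * z ^ 3 + 2 * z ^ 4 + 1 * z ^ 5 - 4 * z ^ 6 - 10 * z ^ 7 - 15 * z ^ 8 + 11 * z ^ 9 + 19 * z ^ 10 - 13 * z ^ 11 - 16 * z ^ 12 + 13 * z ^ 13 + 3 * z ^ 14 - 2 * z ^ 15 + 18 * z ^ 16 - 11 * z ^ 17 - 15 * z ^ 18 + 9 * z ^ 19 - 7 * z ^ 20 - 17 * z ^ 21 + 29 * z ^ 22 + 8 * z ^ 23 - 13 * z ^ 24 - 16 * z ^ 25 + 13 * z ^ 26 + 3 * z ^ 27 - 2 * z ^ 28 + 18 * z ^ 29 - 11 * z ^ 30 - 15 * z ^ 31 + 9 * z ^ 32 - 7 * z ^ 33 - 17 * z ^ 34 + 29 * z ^ 35 + 8 * z ^ 36 - 13 * z ^ 37 - 16 * z ^ 38 + 13 * z ^ 39 + 3 * z ^ 40 - 2 * z ^ 41 + 18 * z ^ 42 - 11 * z ^ 43) * h1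
  have s12 : (35 + 11 * z ^ 1 - 24 * z ^ 2 + 27 * z ^ 3 - 27 * z ^ 4 - 7 * z ^ 5 + 9 * z ^ 6 + 6 * z ^ 7 - 28 * z ^ 8 + 8 * z ^ 9 + 21 * z ^ 10 - 16 * z ^ 11 - 14 * z ^ 12) *
      (1 + z ^ 12 - (z ^ 12) ^ 4) =
      73 - 6 * z ^ 1 - 6 * z ^ 2 - 6 * z ^ 3 - 6 * z ^ 4 - 6 * z ^ 5 - 6 * z ^ 6 - 6 * z ^ 7 - 6 * z ^ 8 - 6 * z ^ 9 - 6 * z ^ 10 - 6 * z ^ 11 - 6 * z ^ 12 := by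
    linear_combination (38 - 17 * z ^ 1 + 18 * z ^ 2 - 33 * z ^ 3 + 21 * z ^ 4 + 1 * z ^ 5 - 15 * z ^ 6 - 12 * z ^ 7 + 22 * z ^ 8 - 14 * z ^ 9 - 27 * z ^ 10 + 10 * z ^ 11 - 27 * z ^ 12 + 27 * z ^ 13 + 7 * z ^ 14 - 9 * z ^ 15 - 6 * z ^ 16 + 28 * z ^ 17 - 8 * z ^ 18 - 21 * z ^ 19 + 16 * z ^ 20 + 14 * z ^ 21 - 35 * z ^ 22 - 11 * z ^ 23 + 24 * z ^ 24 - 27 * z ^ 25 + 27 * z ^ 26 + 7 * z ^ 27 - 9 * z ^ 28 - 6 * z ^ 29 + 28 * z ^ 30 - 8 * z ^ 31 - 21 * z ^ 32 + 16 * z ^ 33 + 14 * z ^ 34 - 35 * z ^ 35 - 11 * z ^ 36 + 24 * z ^ 37 - 27 * z ^ 38 + 27 * z ^ 39 + 7 * z ^ 40 - 9 * z ^ 41 - 6 * z ^ 42 + 28 * z ^ 43 - 8 * z ^ 44 - 21 * z ^ 45 + 16 * z ^ 46 + 14 * z ^ 47) * h1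
  have fin : 73 - 6 * z ^ 1 - 6 * z ^ 2 - 6 * z ^ 3 - 6 * z ^ 4 - 6 * z ^ 5 - 6 * z ^ 6 - 6 * z ^ 7 - 6 * z ^ 8 - 6 * z ^ 9 - 6 * z ^ 10 - 6 * z ^ 11 - 6 * z ^ 12 = 79 := by
    linear_combination (-6) * h2'
  rw [Cert13_79.prod_Icc_expand (fun k : ℕ => 1 + z ^ k - (z ^ k) ^ 4)]
  show (1 + z ^ 1 - (z ^ 1) ^ 4) * (1 + z ^ 2 - (z ^ 2) ^ 4) * (1 + z ^ 3 - (z ^ 3) ^ 4) * (1 + z ^ 4 - (z ^ 4) ^ 4) * (1 + z ^ 5 - (z ^ 5) ^ 4) * (1 + z ^ 6 - (z ^ 6) ^ 4) * (1 + z ^ 7 - (z ^ 7) ^ 4) * (1 + z ^ 8 - (z ^ 8) ^ 4) * (1 + z ^ 9 - (z ^ 9) ^ 4) * (1 + z ^ 10 - (z ^ 10) ^ 4) * (1 + z ^ 11 - (z ^ 11) ^ 4) * (1 + z ^ 12 - (z ^ 12) ^ 4) = 79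
  rw [s1, s2, s3, s4, s5, s6, s7, s8, s9, s10, s11, s12, fin]

end Fermat.Agent.Kummer.PID
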