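import Fermat.Agent.Kummer.Defs

/-!
# Kummer / PID: an element of norm `ℓ^f` (`f` = order of `ℓ` mod `p`) generates a prime above `ℓ`
-/

set_option autoImplicit false

namespace Fermat.Agent.Kummer.PID

open NumberField Module Ideal

/-- In a Dedekind domain of integers: an ideal contained in a prime of the same absolute norm is
equal to it. -/
theorem eq_of_le_of_absNorm_eq (K : Type) [Field K] [NumberField K] (I P : Ideal (𝓞 K))
    (hle : I ≤ P) (hP : absNorm P ≠ 0) (h : absNorm I = absNorm P) : I = P := by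
  obtain ⟨J, rfl⟩ := Ideal.dvd_iff_le.mpr hle
  rw [map_mul] at h
  have hJ : absNorm J = 1 :=
    Nat.eq_of_mul_eq_mul_left (Nat.pos_of_ne_zero hP) (h.trans (mul_one _).symm)
  rw [Ideal.absNorm_eq_one_iff] at hJ
  rw [hJ, Ideal.mul_top]

/-- Let `ℓ ≠ p` be a prime and `f ≥ 1` such that `ℓ^k ≢ 1 mod p` for `1 ≤ k < f`.  If `α` is an
integer of the `p`-th cyclotomic field with `|N(α)| = ℓ^f`, then `(α)` is a prime above `ℓ`;
in particular there is a principal prime above `ℓ`. -/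
theorem exists_principal_prime_of_absNorm (p ℓ f : ℕ) [Fact p.Prime] (hℓ : ℓ.Prime) (hne : ℓ ≠ p)
    (hf : 0 < f) (K : Type) [Field K] [NumberField K] [IsCyclotomicExtension {p} ℚ K]
    (hord : ∀ k, 1 ≤ k → k < f → ℓ ^ k % p ≠ 1) (α : 𝓞 K)
    (hα : absNorm (span {α}) = ℓ ^ f) :
    ∃ P ∈ primesOver (span {(ℓ : ℤ)}) (𝓞 K), Submodule.IsPrincipal P := by
  have hp : p.Prime := Fact.out
  have : Fact ℓ.Prime := ⟨hℓ⟩
  have : NeZero p := ⟨hp.ne_zero⟩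
  have hℓf1 : ℓ ^ f ≠ 1 := (Nat.one_lt_pow hf.ne' hℓ.one_lt).ne'
  have hne_top : span {α} ≠ (⊤ : Ideal (𝓞 K)) := by
    intro h
    rw [← Ideal.absNorm_eq_one_iff, hα] at h
    exact hℓf1 h
  -- a maximal ideal containing `α`
  obtain ⟨P, hPmax, hle⟩ := Ideal.exists_le_maximal _ hne_top
  have hPprime : P.IsPrime := hPmax.isPrime
  -- `ℓ ∈ P`
  have hℓfmem : ((ℓ ^ f : ℕ) : 𝓞 K) ∈ P := hle (hα ▸ Ideal.absNorm_mem (span {α}))
  have hℓmem : ((ℓ : ℕ) : 𝓞 K) ∈ P := by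
    rw [Nat.cast_pow] at hℓfmem
    exact hPprime.mem_of_pow_mem f hℓfmem
  -- `P` lies over `ℓ`
  have hℓmax : (span {(ℓ : ℤ)}).IsMaximal :=
    (Ideal.span_singleton_prime (by exact_mod_cast hℓ.ne_zero)).2
      (Nat.prime_iff_prime_int.mp hℓ) |>.isMaximal (by simpa using hℓ.ne_zero)
  have hunder_ne_top : P.under ℤ ≠ ⊤ := (inferInstance : (P.under ℤ).IsPrime).ne_top
  have hle' : span {(ℓ : ℤ)} ≤ P.under ℤ := by
    rw [Ideal.span_singleton_le_iff_mem, Ideal.mem_comap]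
    simpa using hℓmem
  have hlies : P.LiesOver (span {(ℓ : ℤ)}) := ⟨hℓmax.eq_of_le hunder_ne_top hle'⟩
  -- the inertia degree
  have hnorm : ℓ ^ P.inertiaDeg ℤ = absNorm P := Ideal.pow_inertiaDeg ℓ P
  have hnd : ¬ ℓ ∣ p := fun h => hne ((Nat.prime_dvd_prime_iff_eq hℓ hp).1 h)
  have hdeg : P.inertiaDeg ℤ = orderOf ((ℓ : ℕ) : ZMod p) :=
    IsCyclotomicExtension.Rat.inertiaDeg_eq_of_not_dvd ℓ K P hnd
  have hpos : 0 < P.inertiaDeg ℤ := Ideal.inertiaDeg_pos P ℤ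
  have hdvd : ℓ ^ P.inertiaDeg ℤ ∣ ℓ ^ f := by
    rw [hnorm, ← hα]
    exact Ideal.absNorm_dvd_absNorm_of_le hle
  have hlef : P.inertiaDeg ℤ ≤ f := (Nat.pow_dvd_pow_iff_le_right hℓ.one_lt).1 hdvd
  have hone : ℓ ^ P.inertiaDeg ℤ % p = 1 := by
    have h1 : ((ℓ : ℕ) : ZMod p) ^ P.inertiaDeg ℤ = 1 := by
      rw [hdeg]
      exact pow_orderOf_eq_one _
    have h2 : ((ℓ ^ P.inertiaDeg ℤ : ℕ) : ZMod p) = ((1 : ℕ) : ZMod p) := by
      push_cast
      exact h1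
    rw [ZMod.natCast_eq_natCast_iff'] at h2
    rw [h2]
    exact Nat.mod_eq_of_lt hp.one_lt
  have hfeq : P.inertiaDeg ℤ = f := by
    rcases hlef.lt_or_eq with hlt | heq
    · exact absurd hone (hord _ hpos hlt)
    · exact heq
  have hP0 : absNorm P ≠ 0 := by
    rw [← hnorm]
    exact pow_ne_zero _ hℓ.ne_zero
  have hspan : span {α} = P :=
    eq_of_le_of_absNorm_eq K _ P hle hP0 (by rw [hα, ← hnorm, hfeq])
  exact ⟨P, ⟨hPprime, hlies⟩, ⟨⟨α, hspan.symm⟩⟩⟩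

end Fermat.Agent.Kummer.PID
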