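import Fermat.Agent.Kummer.PID.Norm
import Fermat.Agent.Kummer.PID.Prime
import Fermat.Agent.Kummer.PID.Cert11
import Fermat.Agent.Kummer.PID.Cert13_53
import Fermat.Agent.Kummer.PID.Cert13_27
import Fermat.Agent.Kummer.PID.Cert13_131
import Fermat.Agent.Kummer.PID.Cert13_79
import Fermat.Agent.Kummer.PID.Cert13_157

/-!
# Kummer / PID: principal primes above the exceptional primes
(`23` for `p = 11`; `3, 53, 79, 131, 157` for `p = 13`)
-/

set_option autoImplicit false

namespace Fermat.Agent.Kummer.PID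

open NumberField Module Ideal Polynomial

/-- `ζ^p = 1` for the chosen primitive root in `𝓞 K`. -/
theorem zeta_pow_eq_one (p : ℕ) [Fact p.Prime]
    (K : Type) [Field K] [NumberField K] [IsCyclotomicExtension {p} ℚ K] :
    (IsCyclotomicExtension.zeta_spec p ℚ K).toInteger ^ p = 1 :=
  (IsCyclotomicExtension.zeta_spec p ℚ K).toInteger_isPrimitiveRoot.pow_eq_one

/-- `1 + ζ + ⋯ + ζ^(p-1) = 0` for the chosen primitive root in `𝓞 K`. -/
theorem zeta_geom_sum (p : ℕ) [Fact p.Prime]
    (K : Type) [Field K] [NumberField K] [IsCyclotomicExtension {p} ℚ K] :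
    ∑ i ∈ Finset.range p, (IsCyclotomicExtension.zeta_spec p ℚ K).toInteger ^ i = 0 :=
  (IsCyclotomicExtension.zeta_spec p ℚ K).toInteger_isPrimitiveRoot.geom_sum_eq_zero
    (Fact.out : p.Prime).one_lt

/-- Combination of `absNorm_of_prod_conj` and `exists_principal_prime_of_absNorm`. -/
theorem exists_principal_prime_of_prod (p ℓ f : ℕ) [Fact p.Prime] (hℓ : ℓ.Prime) (hne : ℓ ≠ p)
    (hf : 0 < f) (K : Type) [Field K] [NumberField K] [IsCyclotomicExtension {p} ℚ K]
    (hord : ∀ k, 1 ≤ k → k < f → ℓ ^ k % p ≠ 1) (a : Polynomial ℤ)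
    (hprod : ∏ k ∈ Finset.Icc 1 (p - 1),
      Polynomial.aeval ((IsCyclotomicExtension.zeta_spec p ℚ K).toInteger ^ k) a
        = ((ℓ ^ f : ℕ) : 𝓞 K)) :
    ∃ P ∈ primesOver (span {(ℓ : ℤ)}) (𝓞 K), Submodule.IsPrincipal P :=
  exists_principal_prime_of_absNorm p ℓ f hℓ hne hf K hord _
    (absNorm_of_prod_conj p K a (ℓ ^ f) hprod)

theorem principal_eleven_23 (K : Type) [Field K] [NumberField K]
    [IsCyclotomicExtension {11} ℚ K] :
    ∃ P ∈ primesOver (span {((23 : ℕ) : ℤ)}) (𝓞 K), Submodule.IsPrincipal P := by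
  haveI : Fact (Nat.Prime 11) := ⟨by norm_num⟩
  refine exists_principal_prime_of_prod 11 23 1 (by norm_num) (by norm_num) one_pos K
    (fun k hk1 hk2 => by omega) (1 + X + X ^ 3) ?_
  have h := cert11_23 (IsCyclotomicExtension.zeta_spec 11 ℚ K).toInteger
    (zeta_pow_eq_one 11 K) (zeta_geom_sum 11 K)
  simpa using h

theorem principal_thirteen_53 (K : Type) [Field K] [NumberField K]
    [IsCyclotomicExtension {13} ℚ K] :
    ∃ P ∈ primesOver (span {((53 : ℕ) : ℤ)}) (𝓞 K), Submodule.IsPrincipal P := by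
  haveI : Fact (Nat.Prime 13) := ⟨by norm_num⟩
  refine exists_principal_prime_of_prod 13 53 1 (by norm_num) (by norm_num) one_pos K
    (fun k hk1 hk2 => by omega) (1 + X + X ^ 3) ?_
  have h := cert13_53 (IsCyclotomicExtension.zeta_spec 13 ℚ K).toInteger
    (zeta_pow_eq_one 13 K) (zeta_geom_sum 13 K)
  simpa using h

theorem principal_thirteen_3 (K : Type) [Field K] [NumberField K]
    [IsCyclotomicExtension {13} ℚ K] :
    ∃ P ∈ primesOver (span {((3 : ℕ) : ℤ)}) (𝓞 K), Submodule.IsPrincipal P := by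
  haveI : Fact (Nat.Prime 13) := ⟨by norm_num⟩
  refine exists_principal_prime_of_prod 13 3 3 (by norm_num) (by norm_num) (by norm_num) K
    (fun k hk1 hk2 => by interval_cases k <;> norm_num) (1 + X - X ^ 3) ?_
  have h := cert13_27 (IsCyclotomicExtension.zeta_spec 13 ℚ K).toInteger
    (zeta_pow_eq_one 13 K) (zeta_geom_sum 13 K)
  simpa using h

theorem principal_thirteen_131 (K : Type) [Field K] [NumberField K]
    [IsCyclotomicExtension {13} ℚ K] :
    ∃ P ∈ primesOver (span {((131 : ℕ) : ℤ)}) (𝓞 K), Submodule.IsPrincipal P := by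
  haveI : Fact (Nat.Prime 13) := ⟨by norm_num⟩
  refine exists_principal_prime_of_prod 13 131 1 (by norm_num) (by norm_num) one_pos K
    (fun k hk1 hk2 => by omega) (1 - X - X ^ 3) ?_
  have h := cert13_131 (IsCyclotomicExtension.zeta_spec 13 ℚ K).toInteger
    (zeta_pow_eq_one 13 K) (zeta_geom_sum 13 K)
  simpa using h

theorem principal_thirteen_79 (K : Type) [Field K] [NumberField K]
    [IsCyclotomicExtension {13} ℚ K] :
    ∃ P ∈ primesOver (span {((79 : ℕ) : ℤ)}) (𝓞 K), Submodule.IsPrincipal P := by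
  haveI : Fact (Nat.Prime 13) := ⟨by norm_num⟩
  refine exists_principal_prime_of_prod 13 79 1 (by norm_num) (by norm_num) one_pos K
    (fun k hk1 hk2 => by omega) (1 + X - X ^ 4) ?_
  have h := cert13_79 (IsCyclotomicExtension.zeta_spec 13 ℚ K).toInteger
    (zeta_pow_eq_one 13 K) (zeta_geom_sum 13 K)
  simpa using h

theorem principal_thirteen_157 (K : Type) [Field K] [NumberField K]
    [IsCyclotomicExtension {13} ℚ K] :
    ∃ P ∈ primesOver (span {((157 : ℕ) : ℤ)}) (𝓞 K), Submodule.IsPrincipal P := by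
  haveI : Fact (Nat.Prime 13) := ⟨by norm_num⟩
  refine exists_principal_prime_of_prod 13 157 1 (by norm_num) (by norm_num) one_pos K
    (fun k hk1 hk2 => by omega) (1 - X + X ^ 2 + X ^ 4) ?_
  have h := cert13_157 (IsCyclotomicExtension.zeta_spec 13 ℚ K).toInteger
    (zeta_pow_eq_one 13 K) (zeta_geom_sum 13 K)
  simpa using h

end Fermat.Agent.Kummer.PID
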