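import Fermat.Agent.Kummer.Defs

/-!
# Kummer / PID: reduction of principality to finitely many exceptional primes
-/

set_option autoImplicit false

namespace Fermat.Agent.Kummer.PID

open NumberField Module InfinitePlace Ideal Nat Real

/-- A prime `ℓ ≠ p` all of whose powers `ℓ^k ≤ B` (`k ≥ 1`) are `≢ 1 mod p`: every prime of the
`p`-th cyclotomic field above `ℓ` has norm `ℓ^f > B` (`f` = order of `ℓ` mod `p`). -/
theorem exists_prime_lt_pow (p ℓ B : ℕ) [Fact p.Prime] (hℓ : ℓ.Prime) (hne : ℓ ≠ p)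
    (K : Type) [Field K] [NumberField K] [IsCyclotomicExtension {p} ℚ K]
    (h : ∀ k, 1 ≤ k → ℓ ^ k ≤ B → ℓ ^ k % p ≠ 1) :
    ∃ P ∈ primesOver (span {(ℓ : ℤ)}) (𝓞 K), B < ℓ ^ P.inertiaDeg ℤ := by
  have hp : p.Prime := Fact.out
  have : Fact ℓ.Prime := ⟨hℓ⟩
  have : NeZero p := ⟨hp.ne_zero⟩
  have hndvd : ¬ ℓ ∣ p := fun hd => hne ((Nat.prime_dvd_prime_iff_eq hℓ hp).mp hd)
  have hcop : ℓ.Coprime p := (Nat.coprime_primes hℓ hp).mpr hne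
  obtain ⟨⟨P, hP1, hP2⟩⟩ := (span {(ℓ : ℤ)}).nonempty_primesOver (S := 𝓞 K)
  refine ⟨P, ⟨hP1, hP2⟩, ?_⟩
  rw [IsCyclotomicExtension.Rat.inertiaDeg_eq_of_not_dvd ℓ K P hndvd]
  have hfpos : 0 < orderOf ((ℓ : ℕ) : ZMod p) := by
    rw [← ZMod.coe_unitOfCoprime ℓ hcop, orderOf_units]
    exact orderOf_pos _
  have hpow : ((ℓ : ℕ) : ZMod p) ^ orderOf ((ℓ : ℕ) : ZMod p) = 1 := pow_orderOf_eq_one _
  have hmod : ℓ ^ orderOf ((ℓ : ℕ) : ZMod p) % p = 1 := by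
    have h1 : ((ℓ ^ orderOf ((ℓ : ℕ) : ZMod p) : ℕ) : ZMod p) = ((1 : ℕ) : ZMod p) := by
      rw [Nat.cast_pow, hpow, Nat.cast_one]
    rw [ZMod.natCast_eq_natCast_iff'] at h1
    rw [h1]
    exact Nat.mod_eq_of_lt hp.one_lt
  by_contra hB
  exact h _ hfpos (not_lt.mp hB) hmod

/-- The ramified prime: `(ζ - 1)` is a principal prime above `p`. -/
theorem exists_principal_prime_ramified (p : ℕ) [Fact p.Prime]
    (K : Type) [Field K] [NumberField K] [IsCyclotomicExtension {p} ℚ K] :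
    ∃ P ∈ primesOver (span {(p : ℤ)}) (𝓞 K), Submodule.IsPrincipal P := by
  have hK : IsCyclotomicExtension {p} ℚ K := inferInstance
  have hK' : IsCyclotomicExtension {p ^ (0 + 1)} ℚ K := by rwa [zero_add, pow_one]
  have hζ : IsPrimitiveRoot (IsCyclotomicExtension.zeta (p ^ (0 + 1)) ℚ K) (p ^ (0 + 1)) :=
    IsCyclotomicExtension.zeta_spec (p ^ (0 + 1)) ℚ K
  exact ⟨span {hζ.toInteger - 1},
    ⟨IsCyclotomicExtension.Rat.isPrime_span_zeta_sub_one p 0 hζ,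
      IsCyclotomicExtension.Rat.liesOver_span_zeta_sub_one p 0 hζ⟩,
    ⟨⟨hζ.toInteger - 1, rfl⟩⟩⟩

/-- **Reduction.**  If the Minkowski bound of the `p`-th cyclotomic field is `≤ B`, and every
"exceptional" prime `ℓ ≤ B`, `ℓ ≠ p` (some power `ℓ^k ≤ B`, `k ≥ 1`, is `≡ 1 mod p`) has a
principal prime above it, then `𝓞 K` is a PID. -/
theorem isPrincipalIdealRing_of_bound (p B : ℕ) [Fact p.Prime]
    (K : Type) [Field K] [NumberField K] [IsCyclotomicExtension {p} ℚ K]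
    (hB : ⌊(4 / π) ^ nrComplexPlaces K *
      ((finrank ℚ K)! / (finrank ℚ K) ^ (finrank ℚ K) * √|discr K|)⌋₊ ≤ B)
    (h : ∀ ℓ : ℕ, ℓ.Prime → ℓ ≤ B → ℓ ≠ p → (∃ k, 1 ≤ k ∧ ℓ ^ k ≤ B ∧ ℓ ^ k % p = 1) →
      ∃ P ∈ primesOver (span {(ℓ : ℤ)}) (𝓞 K), Submodule.IsPrincipal P) :
    IsPrincipalIdealRing (𝓞 K) := by
  have : IsGalois ℚ K := IsCyclotomicExtension.isGalois {p} ℚ K
  refine RingOfIntegers.isPrincipalIdealRing_of_isPrincipal_of_lt_or_isPrincipal_of_mem_primesOver_of_mem_Icc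
    (K := K) (fun ℓ hℓmem hℓ => ?_)
  have hℓB : ℓ ≤ B := le_trans (Finset.mem_Icc.mp hℓmem).2 hB
  by_cases hℓp : ℓ = p
  · obtain ⟨P, hP, hprinc⟩ := exists_principal_prime_ramified p K
    rw [hℓp]
    exact ⟨P, hP, Or.inr hprinc⟩
  · by_cases hex : ∃ k, 1 ≤ k ∧ ℓ ^ k ≤ B ∧ ℓ ^ k % p = 1
    · obtain ⟨P, hP, hprinc⟩ := h ℓ hℓ hℓB hℓp hex
      exact ⟨P, hP, Or.inr hprinc⟩
    · have hex' : ∀ k, 1 ≤ k → ℓ ^ k ≤ B → ℓ ^ k % p ≠ 1 :=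
        fun k hk hkB hmod => hex ⟨k, hk, hkB, hmod⟩
      obtain ⟨P, hP, hlt⟩ := exists_prime_lt_pow p ℓ B hℓ hℓp K hex'
      exact ⟨P, hP, Or.inl (lt_of_le_of_lt hB hlt)⟩

end Fermat.Agent.Kummer.PID
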