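import Fermat.Agent.Kummer.Defs

/-!
# Kummer / PID: the absolute norm of `(a(ζ))` from the product of the conjugates `a(ζ^k)`
-/

set_option autoImplicit false

namespace Fermat.Agent.Kummer.PID

open NumberField Module Ideal

/-- For `k` prime to `p` there is an automorphism of the `p`-th cyclotomic field with
`ζ ↦ ζ^k`. -/
theorem exists_aut_zeta_pow (p : ℕ) [Fact p.Prime]
    (K : Type) [Field K] [NumberField K] [IsCyclotomicExtension {p} ℚ K] (k : ℕ) (hk : ¬ p ∣ k) :
    ∃ σ : K ≃ₐ[ℚ] K,
      σ (IsCyclotomicExtension.zeta p ℚ K) = IsCyclotomicExtension.zeta p ℚ K ^ k := by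
  have hp : p.Prime := Fact.out
  have hcop : k.Coprime p := ((Nat.Prime.coprime_iff_not_dvd hp).mpr hk).symm
  have hμ : IsPrimitiveRoot (IsCyclotomicExtension.zeta p ℚ K ^ k) p :=
    (IsCyclotomicExtension.zeta_spec p ℚ K).pow_of_coprime k hcop
  have hirr : Irreducible (Polynomial.cyclotomic p ℚ) :=
    Polynomial.cyclotomic.irreducible_rat hp.pos
  exact ⟨IsCyclotomicExtension.fromZetaAut hμ hirr,
    IsCyclotomicExtension.fromZetaAut_spec hμ hirr⟩

/-- Conjugate integers generate ideals of the same norm. -/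
theorem absNorm_span_conj (K : Type) [Field K] [NumberField K] (σ : K ≃ₐ[ℚ] K) (x y : 𝓞 K)
    (h : (y : K) = σ (x : K)) : absNorm (span {y}) = absNorm (span {x}) := by
  rw [Ideal.absNorm_span_singleton, Ideal.absNorm_span_singleton]
  congr 1
  apply Int.cast_injective (α := ℚ)
  rw [Algebra.coe_norm_int, Algebra.coe_norm_int, h, Algebra.norm_eq_of_algEquiv]

theorem absNorm_span_natCast (K : Type) [Field K] [NumberField K] (n : ℕ) :
    absNorm (span {(n : 𝓞 K)}) = n ^ finrank ℚ K := by
  have h : (n : 𝓞 K) = algebraMap ℤ (𝓞 K) (n : ℤ) := by simp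
  rw [Ideal.absNorm_span_singleton, h, Algebra.norm_algebraMap, RingOfIntegers.rank,
    Int.natAbs_pow, Int.natAbs_natCast]

/-- A field automorphism commutes with the evaluation of an integer polynomial. -/
theorem Norm.map_aeval_int (K : Type) [Field K] [NumberField K] (σ : K ≃ₐ[ℚ] K) (a : Polynomial ℤ) (x : K) :
    σ (Polynomial.aeval x a) = Polynomial.aeval (σ x) a := by
  have h := Polynomial.hom_eval₂ a (algebraMap ℤ K) (σ : K →+* K) x
  rw [show (σ : K →+* K).comp (algebraMap ℤ K) = algebraMap ℤ K from Subsingleton.elim _ _] at h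
  rw [Polynomial.aeval_def, Polynomial.aeval_def]
  exact h

/-- The coercion `𝓞 K → K` commutes with the evaluation of an integer polynomial. -/
theorem Norm.coe_aeval_int (K : Type) [Field K] [NumberField K] (a : Polynomial ℤ) (x : 𝓞 K) :
    ((Polynomial.aeval x a : 𝓞 K) : K) = Polynomial.aeval (x : K) a :=
  (Polynomial.aeval_algebraMap_apply K x a).symm

/-- If the product of the `p - 1` conjugates `a(ζ^k)` (`1 ≤ k ≤ p - 1`) of `a(ζ)` is the natural
number `n`, then the ideal `(a(ζ))` has absolute norm `n`. -/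
theorem absNorm_of_prod_conj (p : ℕ) [Fact p.Prime]
    (K : Type) [Field K] [NumberField K] [IsCyclotomicExtension {p} ℚ K] (a : Polynomial ℤ) (n : ℕ)
    (hprod : ∏ k ∈ Finset.Icc 1 (p - 1),
      Polynomial.aeval ((IsCyclotomicExtension.zeta_spec p ℚ K).toInteger ^ k) a = (n : 𝓞 K)) :
    absNorm (span {Polynomial.aeval (IsCyclotomicExtension.zeta_spec p ℚ K).toInteger a}) = n := by
  have hp : p.Prime := Fact.out
  have hp2 := hp.two_le
  -- each conjugate generates an ideal of the same norm
  have hconj : ∀ k ∈ Finset.Icc 1 (p - 1),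
      absNorm (span {Polynomial.aeval
        ((IsCyclotomicExtension.zeta_spec p ℚ K).toInteger ^ k) a}) =
      absNorm (span {Polynomial.aeval (IsCyclotomicExtension.zeta_spec p ℚ K).toInteger a}) := by
    intro k hk
    rw [Finset.mem_Icc] at hk
    have hpk : ¬ p ∣ k := fun hdvd => by
      have := Nat.le_of_dvd (by omega) hdvd
      omega
    obtain ⟨σ, hσ⟩ := exists_aut_zeta_pow p K k hpk
    have hpt : (((IsCyclotomicExtension.zeta_spec p ℚ K).toInteger ^ k : 𝓞 K) : K) =
        σ (((IsCyclotomicExtension.zeta_spec p ℚ K).toInteger : 𝓞 K) : K) := by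
      rw [RingOfIntegers.coe_eq_algebraMap, map_pow]
      exact hσ.symm
    apply absNorm_span_conj K σ
    rw [Norm.coe_aeval_int, Norm.coe_aeval_int, Norm.map_aeval_int, hpt]
  have h1 : absNorm (span {∏ k ∈ Finset.Icc 1 (p - 1),
      Polynomial.aeval ((IsCyclotomicExtension.zeta_spec p ℚ K).toInteger ^ k) a}) =
      absNorm (span {(n : 𝓞 K)}) := by
    rw [hprod]
  rw [← Ideal.prod_span_singleton, map_prod, Finset.prod_congr rfl hconj, Finset.prod_const,
    Nat.card_Icc, absNorm_span_natCast,
    IsCyclotomicExtension.finrank K (Polynomial.cyclotomic.irreducible_rat hp.pos),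
    Nat.totient_prime hp, Nat.add_sub_cancel] at h1
  exact Nat.pow_left_injective (by omega) h1

end Fermat.Agent.Kummer.PID
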